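import Fermat.Agent.S14.Cnt.Main
import Fermat.Agent.S14.Euler92.Dens

/-!
# S14 / [CNT] → [DENS] adapter

The hypothesis `hCNT` of `Euler92.dens_false` for a multiplicative function `Ψ` on ideals which
factors through the class group.
-/

namespace Fermat.Agent.S14.Cnt.Adapter92

open NumberField
open scoped nonZeroDivisors Classical

variable {K : Type*} [Field K] [NumberField K]

/-- `Lfun` is bounded on `(1,2]` as soon as `Ψ^j` factors through a function `φ` on the class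
group whose values sum to zero. -/
theorem lfun_bounded_of_factors (Ψ : Ideal (𝓞 K) →*₀ ℂ) (j : ℕ) (φ : ClassGroup (𝓞 K) → ℂ)
    (hφ : ∑ c, φ c = 0)
    (hΨ : ∀ I : (Ideal (𝓞 K))⁰, Ψ (I : Ideal (𝓞 K)) ^ j = φ (ClassGroup.mk0 I)) :
    ∃ B : ℝ, ∀ σ : ℝ, 1 < σ → σ ≤ 2 → ‖Euler92.Lfun K Ψ j σ‖ ≤ B := by
  obtain ⟨B, hB⟩ := classL_bounded φ hφ
  refine ⟨B, fun σ h1 h2 => ?_⟩
  have key : Euler92.Lfun K Ψ j σ =
      ∑' I : (Ideal (𝓞 K))⁰, φ (ClassGroup.mk0 I) *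
        (((Ideal.absNorm (I : Ideal (𝓞 K)) : ℝ) ^ (-σ) : ℝ) : ℂ) := by
    rw [Euler92.Lfun]
    have hinj : Function.Injective (Subtype.val : (Ideal (𝓞 K))⁰ → Ideal (𝓞 K)) :=
      Subtype.val_injective
    rw [← hinj.tsum_eq]
    · refine tsum_congr fun I => ?_
      have hI : (I : Ideal (𝓞 K)) ≠ ⊥ := nonZeroDivisors.coe_ne_zero I
      rw [Euler92.twistPow_apply, hΨ I, Euler92.normPow_apply_of_ne_bot _ hI]
    · intro I hI
      rw [Function.mem_support] at hI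
      have hI0 : I ≠ ⊥ := by
        rintro rfl
        apply hI
        rw [Euler92.twistPow_apply]
        simp
      exact ⟨⟨I, mem_nonZeroDivisors_of_ne_zero hI0⟩, rfl⟩
  rw [key]
  exact (hB σ h1 h2).2

/-- The multiplicative function on ideals attached to a character of the class group. -/
noncomputable def idealChar (ψ : ClassGroup (𝓞 K) →* ℂˣ) : Ideal (𝓞 K) →*₀ ℂ where
  toFun I := if h : I = ⊥ then 0 else
    (ψ (ClassGroup.mk0 ⟨I, mem_nonZeroDivisors_of_ne_zero h⟩) : ℂ)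
  map_zero' := by simp
  map_one' := by
    have h1 : (1 : Ideal (𝓞 K)) ≠ ⊥ := one_ne_zero
    rw [dif_neg h1]
    have : (⟨1, mem_nonZeroDivisors_of_ne_zero h1⟩ : (Ideal (𝓞 K))⁰) = 1 := rfl
    rw [this, map_one, map_one, Units.val_one]
  map_mul' I J := by
    by_cases hI : I = ⊥
    · simp [hI]
    by_cases hJ : J = ⊥
    · simp [hJ]
    have hIJ : I * J ≠ ⊥ := mul_ne_zero hI hJ
    rw [dif_neg hI, dif_neg hJ, dif_neg hIJ, ← Units.val_mul, ← map_mul, ← map_mul]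
    rfl

theorem idealChar_apply (ψ : ClassGroup (𝓞 K) →* ℂˣ) (I : (Ideal (𝓞 K))⁰) :
    idealChar ψ (I : Ideal (𝓞 K)) = (ψ (ClassGroup.mk0 I) : ℂ) := by
  have hI : (I : Ideal (𝓞 K)) ≠ ⊥ := nonZeroDivisors.coe_ne_zero I
  simp only [idealChar, MonoidWithZeroHom.coe_mk, ZeroHom.coe_mk, dif_neg hI]

theorem idealChar_pow_eq_one (ψ : ClassGroup (𝓞 K) →* ℂˣ) {p : ℕ} (hψ : ∀ c, ψ c ^ p = 1)
    (I : Ideal (𝓞 K)) (hI : I ≠ ⊥) : idealChar ψ I ^ p = 1 := by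
  have := idealChar_apply ψ ⟨I, mem_nonZeroDivisors_of_ne_zero hI⟩
  simp only at this
  rw [this, ← Units.val_pow_eq_pow_val, hψ, Units.val_one]

/-- `hCNT` of `Euler92.dens_false` for `Ψ = idealChar ψ`, `ψ` a nontrivial character of the class
group with `ψ ^ p = 1`, `p` prime. -/
theorem hCNT_idealChar {p : ℕ} (hp : p.Prime) (ψ : ClassGroup (𝓞 K) →* ℂˣ)
    (hψp : ∀ c, ψ c ^ p = 1) (hψ : ψ ≠ 1) :
    ∀ j : ℕ, 0 < j → j < p → ∃ B : ℝ, ∀ σ : ℝ, 1 < σ → σ ≤ 2 →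
      ‖Euler92.Lfun K (idealChar ψ) j σ‖ ≤ B := by
  intro j hj0 hjp
  have hψj : ψ ^ j ≠ 1 := by
    intro h
    apply hψ
    have hcop : Nat.Coprime j p :=
      (Nat.coprime_comm.mp ((Nat.Prime.coprime_iff_not_dvd hp).mpr
        (Nat.not_dvd_of_pos_of_lt hj0 hjp)))
    ext1 c
    have h1 : ψ c ^ j = 1 := by
      have := congrArg (fun f => f c) h
      simpa using this
    have h2 : ψ c ^ p = 1 := hψp c
    have h3 : ψ c ^ (Nat.gcd j p) = 1 := pow_gcd_eq_one.mpr ⟨h1, h2⟩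
    rw [hcop.gcd_eq_one, pow_one] at h3
    simpa using h3
  refine lfun_bounded_of_factors (idealChar ψ) j (fun c => ((ψ ^ j) c : ℂ))
    (sum_char_eq_zero (ψ ^ j) hψj) fun I => ?_
  rw [idealChar_apply, MonoidHom.pow_apply, Units.val_pow_eq_pow_val]

end Fermat.Agent.S14.Cnt.Adapter92
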