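import Fermat.Agent.S14.Cnt.Defs

/-!
# S14 / [CNT-D] : summability of the lattice sums and comparison with a sub-ideal

* `summableStatement (hG : GrowthStatement K ρ) : SummableStatement K ρ`
* `cosetStatement (hG) (hL : LipStatement K ρ) (hρ : IsCutoff K ρ) : CosetStatement K ρ`
-/

set_option autoImplicit false
set_option linter.unusedSectionVars false
set_option linter.unusedVariables false

namespace Fermat.Agent.S14.Cnt.Coset46

open NumberField NumberField.InfinitePlace NumberField.mixedEmbedding NumberField.Units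
  NumberField.Units.dirichletUnitTheorem NumberField.mixedEmbedding.fundamentalCone
open scoped nonZeroDivisors Classical

variable (K : Type*) [Field K] [NumberField K]

/-! ### The lattice `emb (𝓞 K)` -/

lemma emb_injective : Function.Injective (emb K) := fun _ _ h =>
  RingOfIntegers.coe_injective (mixedEmbedding_injective K h)

lemma emb_zero : emb K 0 = 0 := by
  simp [emb]

lemma emb_add (a b : 𝓞 K) : emb K (a + b) = emb K a + emb K b := by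
  simp [emb]

lemma emb_ne_zero {a : 𝓞 K} (ha : a ≠ 0) : emb K a ≠ 0 := fun h =>
  ha (emb_injective K (h.trans (emb_zero K).symm))

lemma emb_mem (a : 𝓞 K) : emb K a ∈ mixedEmbedding.integerLattice K :=
  ⟨a, rfl⟩

lemma finrank_integerLattice :
    Module.finrank ℤ (mixedEmbedding.integerLattice K) = Module.finrank ℚ K := by
  rw [ZLattice.rank ℝ, mixedEmbedding.finrank]

lemma summable_norm_lattice_rpow {r : ℝ} (hr : r < -(Module.finrank ℚ K : ℝ)) :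
    Summable fun z : mixedEmbedding.integerLattice K => ‖(z : mixedSpace K)‖ ^ r := by
  have h := ZLattice.summable_norm_rpow (mixedEmbedding.integerLattice K) r
    (by rw [finrank_integerLattice]; exact hr)
  exact h

/-- the map `𝓞 K → integerLattice K` -/
noncomputable def toLat (β : 𝓞 K) : mixedEmbedding.integerLattice K := ⟨emb K β, emb_mem K β⟩

lemma toLat_injective : Function.Injective (toLat K) :=
  fun _ _ hab => emb_injective K (congrArg Subtype.val hab)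

/-- `∑_{β ∈ 𝓞 K} ‖emb β‖ ^ r` converges for `r < -[K:ℚ]`. -/
lemma summable_norm_emb_rpow {r : ℝ} (hr : r < -(Module.finrank ℚ K : ℝ)) :
    Summable fun β : 𝓞 K => ‖emb K β‖ ^ r := by
  have h := (summable_norm_lattice_rpow K hr).comp_injective (toLat_injective K)
  exact h

lemma finrank_pos' : (0 : ℝ) < (Module.finrank ℚ K : ℝ) := by
  exact_mod_cast (Module.finrank_pos : 0 < Module.finrank ℚ K)

/-! ### [CNT-D1] -/

variable {K}

theorem summable_F_emb {ρ : logSpace K → ℝ} (hG : GrowthStatement K ρ) {s : ℝ} (hs1 : 1 < s)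
    (hs2 : s ≤ 2) : Summable fun β : 𝓞 K => F K ρ s (emb K β) := by
  obtain ⟨C, hC⟩ := hG
  have hd := finrank_pos' K
  have hr : -(Module.finrank ℚ K : ℝ) * s < -(Module.finrank ℚ K : ℝ) := by nlinarith
  have h1 := (summable_norm_emb_rpow K hr).mul_left C
  refine Summable.of_norm_bounded h1 (fun β => ?_)
  rw [Real.norm_eq_abs]
  exact hC s hs1.le hs2 _

theorem summableStatement {ρ : logSpace K → ℝ} (hG : GrowthStatement K ρ) :
    SummableStatement K ρ := by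
  intro s hs1 hs2 J
  have h := (summable_F_emb hG hs1 hs2).subtype (J : Set (𝓞 K))
  exact h

/-! ### Values of `F` at lattice points are bounded by one -/

lemma one_le_norm_emb {β : 𝓞 K} (hβ : β ≠ 0) : 1 ≤ mixedEmbedding.norm (emb K β) := by
  rw [emb, mixedEmbedding.norm_eq_norm]
  rw [← Algebra.coe_norm_int, ← Int.cast_one, ← Int.cast_abs, Rat.cast_intCast, Int.cast_le]
  exact Int.one_le_abs (Algebra.norm_ne_zero_iff.mpr hβ)

lemma abs_F_emb_le_one {ρ : logSpace K → ℝ} (hρ : IsCutoff K ρ) {s : ℝ} (hs : 0 < s) (β : 𝓞 K) :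
    |F K ρ s (emb K β)| ≤ 1 := by
  unfold F
  by_cases hβ : β = 0
  · rw [hβ, emb_zero, map_zero, Real.zero_rpow (neg_ne_zero.mpr hs.ne'), mul_zero, abs_zero]
    exact zero_le_one
  · have h1 := one_le_norm_emb hβ
    have h2 : (mixedEmbedding.norm (emb K β)) ^ (-s) ≤ 1 :=
      Real.rpow_le_one_of_one_le_of_nonpos h1 (by linarith)
    have h3 : 0 ≤ (mixedEmbedding.norm (emb K β)) ^ (-s) :=
      Real.rpow_nonneg (by linarith) _
    rw [abs_mul, abs_of_nonneg (hρ.nonneg _), abs_of_nonneg h3]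
    calc ρ (logMap (emb K β)) * mixedEmbedding.norm (emb K β) ^ (-s) ≤ 1 * 1 :=
          mul_le_mul (hρ.le_one _) h2 h3 zero_le_one
      _ = 1 := one_mul 1

/-! ### The pointwise difference bound -/

/-- exponent `-(d+1)` -/
noncomputable def ex (K : Type*) [Field K] [NumberField K] : ℝ :=
  -((Module.finrank ℚ K : ℝ) + 1)

lemma ex_neg : ex K < 0 := by
  have := finrank_pos' K
  unfold ex
  linarith

lemma ex_lt : ex K < -(Module.finrank ℚ K : ℝ) := by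
  unfold ex
  linarith

/-- the summable majorant -/
noncomputable def Bd (K : Type*) [Field K] [NumberField K] (M : ℝ) (γ : 𝓞 K) : ℝ :=
  M * ‖emb K γ‖ ^ ex K + if γ = 0 then 2 else 0

lemma summable_Bd (M : ℝ) : Summable (Bd K M) :=
  ((summable_norm_emb_rpow K (ex_lt (K := K))).mul_left M).add (hasSum_ite_eq (0 : 𝓞 K) (2 : ℝ)).summable

lemma diff_bound {ρ : logSpace K → ℝ} (hρ : IsCutoff K ρ) {T C' R : ℝ}
    (hL : ∀ s : ℝ, 1 ≤ s → s ≤ 2 → ∀ x t : mixedSpace K, ‖t‖ ≤ T → R ≤ ‖x‖ →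
      |F K ρ s (x + t) - F K ρ s x| ≤ C' * ‖x‖ ^ ex K)
    {s : ℝ} (hs1 : 1 ≤ s) (hs2 : s ≤ 2) (γ r : 𝓞 K) (hr : ‖emb K r‖ ≤ T) :
    |F K ρ s (emb K (γ + r)) - F K ρ s (emb K γ)|
      ≤ Bd K (2 * (max R 1) ^ (-ex K) + |C'|) γ := by
  have hs0 : 0 < s := by linarith
  have h2 : |F K ρ s (emb K (γ + r)) - F K ρ s (emb K γ)| ≤ 2 := by
    have := abs_F_emb_le_one hρ hs0 (γ + r)
    have := abs_F_emb_le_one hρ hs0 γ
    have := abs_sub (F K ρ s (emb K (γ + r))) (F K ρ s (emb K γ))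
    linarith
  have hR' : (0 : ℝ) < max R 1 := lt_of_lt_of_le zero_lt_one (le_max_right _ _)
  have hM1 : 0 ≤ 2 * (max R 1) ^ (-ex K) := by positivity
  have hM : 0 ≤ 2 * (max R 1) ^ (-ex K) + |C'| := by positivity
  unfold Bd
  by_cases hγ : γ = 0
  · rw [if_pos hγ]
    have : 0 ≤ (2 * (max R 1) ^ (-ex K) + |C'|) * ‖emb K γ‖ ^ ex K :=
      mul_nonneg hM (Real.rpow_nonneg (norm_nonneg _) _)
    linarith
  · rw [if_neg hγ, add_zero]
    have hx : 0 < ‖emb K γ‖ := norm_pos_iff.mpr (emb_ne_zero K hγ)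
    have hxe : 0 ≤ ‖emb K γ‖ ^ ex K := Real.rpow_nonneg hx.le _
    by_cases hRx : max R 1 ≤ ‖emb K γ‖
    · have h1 := hL s hs1 hs2 (emb K γ) (emb K r) hr (le_trans (le_max_left _ _) hRx)
      rw [← emb_add] at h1
      calc |F K ρ s (emb K (γ + r)) - F K ρ s (emb K γ)| ≤ C' * ‖emb K γ‖ ^ ex K := h1
        _ ≤ |C'| * ‖emb K γ‖ ^ ex K := mul_le_mul_of_nonneg_right (le_abs_self _) hxe
        _ ≤ (2 * (max R 1) ^ (-ex K) + |C'|) * ‖emb K γ‖ ^ ex K :=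
            mul_le_mul_of_nonneg_right (by linarith) hxe
    · push Not at hRx
      have h3 : (max R 1) ^ ex K ≤ ‖emb K γ‖ ^ ex K :=
        Real.rpow_le_rpow_of_nonpos hx hRx.le (ex_neg (K := K)).le
      have h4 : (max R 1) ^ (-ex K) * (max R 1) ^ ex K = 1 := by
        rw [← Real.rpow_add hR', neg_add_cancel, Real.rpow_zero]
      calc |F K ρ s (emb K (γ + r)) - F K ρ s (emb K γ)| ≤ 2 := h2
        _ = 2 * ((max R 1) ^ (-ex K) * (max R 1) ^ ex K) := by rw [h4, mul_one]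
        _ ≤ 2 * ((max R 1) ^ (-ex K) * ‖emb K γ‖ ^ ex K) := by
            have : 0 ≤ (max R 1) ^ (-ex K) := Real.rpow_nonneg hR'.le _
            have := mul_le_mul_of_nonneg_left h3 this
            linarith
        _ = (2 * (max R 1) ^ (-ex K)) * ‖emb K γ‖ ^ ex K := by ring
        _ ≤ (2 * (max R 1) ^ (-ex K) + |C'|) * ‖emb K γ‖ ^ ex K :=
            mul_le_mul_of_nonneg_right (by linarith [abs_nonneg C']) hxe

/-! ### Coset decomposition of `J` modulo `𝔠` -/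

section Coset

variable (J 𝔠 : Ideal (𝓞 K))

/-- `𝔠` as a subgroup of `J`. -/
abbrev subJ : AddSubgroup J.toAddSubgroup := 𝔠.toAddSubgroup.addSubgroupOf J.toAddSubgroup

/-- the quotient `J / 𝔠`. -/
abbrev Quo : Type _ := J.toAddSubgroup ⧸ subJ J 𝔠

/-- a representative in `𝓞 K` of a class of `J / 𝔠`. -/
noncomputable def rep (q : Quo J 𝔠) : 𝓞 K := ((Quotient.out q : J.toAddSubgroup) : 𝓞 K)

lemma rep_mem (q : Quo J 𝔠) : rep J 𝔠 q ∈ J := (Quotient.out q : J.toAddSubgroup).2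

variable {J 𝔠}

lemma quo_eq_of_sub_mem {q q' : Quo J 𝔠} (h : rep J 𝔠 q' - rep J 𝔠 q ∈ 𝔠) : q = q' := by
  rw [← QuotientAddGroup.out_eq' q, ← QuotientAddGroup.out_eq' q', QuotientAddGroup.eq,
    AddSubgroup.mem_addSubgroupOf]
  have : ((-(Quotient.out q : J.toAddSubgroup) + (Quotient.out q' : J.toAddSubgroup) :
      J.toAddSubgroup) : 𝓞 K) = rep J 𝔠 q' - rep J 𝔠 q := by
    simp only [rep, AddSubgroup.coe_add, AddSubgroup.coe_neg]
    ring
  rw [this]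
  exact h

lemma sub_rep_mem {β : 𝓞 K} (hβ : β ∈ J) :
    β - rep J 𝔠 (QuotientAddGroup.mk (⟨β, hβ⟩ : J.toAddSubgroup)) ∈ 𝔠 := by
  have h := QuotientAddGroup.out_eq' (QuotientAddGroup.mk (⟨β, hβ⟩ : J.toAddSubgroup) : Quo J 𝔠)
  rw [QuotientAddGroup.eq, AddSubgroup.mem_addSubgroupOf] at h
  have h2 : ((-(Quotient.out (QuotientAddGroup.mk (⟨β, hβ⟩ : J.toAddSubgroup) : Quo J 𝔠) :
      J.toAddSubgroup) + (⟨β, hβ⟩ : J.toAddSubgroup) : J.toAddSubgroup) : 𝓞 K)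
      = β - rep J 𝔠 (QuotientAddGroup.mk (⟨β, hβ⟩ : J.toAddSubgroup)) := by
    simp only [rep, AddSubgroup.coe_add, AddSubgroup.coe_neg]
    ring
  rw [h2] at h
  exact h

/-- `J = ⊔_q (𝔠 + r_q)`. -/
noncomputable def cosetEquiv (h𝔠J : 𝔠 ≤ J) : (Quo J 𝔠 × 𝔠) ≃ J :=
  Equiv.ofBijective
    (fun p => ⟨(p.2 : 𝓞 K) + rep J 𝔠 p.1, J.add_mem (h𝔠J p.2.2) (rep_mem J 𝔠 p.1)⟩)
    (by
      constructor
      · rintro ⟨q, γ⟩ ⟨q', γ'⟩ h
        have h1 : (γ : 𝓞 K) + rep J 𝔠 q = (γ' : 𝓞 K) + rep J 𝔠 q' := congrArg Subtype.val h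
        have hq : q = q' := by
          apply quo_eq_of_sub_mem
          have : rep J 𝔠 q' - rep J 𝔠 q = (γ : 𝓞 K) - (γ' : 𝓞 K) := by
            linear_combination -h1
          rw [this]
          exact 𝔠.sub_mem γ.2 γ'.2
        subst hq
        have : (γ : 𝓞 K) = γ' := by linear_combination h1
        rw [Prod.mk.injEq]
        exact ⟨rfl, Subtype.ext this⟩
      · rintro ⟨β, hβ⟩
        refine ⟨(QuotientAddGroup.mk (⟨β, hβ⟩ : J.toAddSubgroup), ⟨_, sub_rep_mem hβ⟩), ?_⟩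
        apply Subtype.ext
        show β - _ + _ = β
        ring)

lemma cosetEquiv_apply (h𝔠J : 𝔠 ≤ J) (p : Quo J 𝔠 × 𝔠) :
    ((cosetEquiv h𝔠J p : J) : 𝓞 K) = (p.2 : 𝓞 K) + rep J 𝔠 p.1 := rfl

lemma finite_quo (h𝔠 : 𝔠 ≠ ⊥) : Finite (Quo J 𝔠) := by
  have hidx : 𝔠.toAddSubgroup.index ≠ 0 := by
    rw [← Ideal.absNorm_eq_index]
    exact fun h => h𝔠 (Ideal.absNorm_eq_zero_iff.mp h)
  have : 𝔠.toAddSubgroup.FiniteIndex := AddSubgroup.finiteIndex_iff.mpr hidx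
  exact AddSubgroup.finite_quotient_of_finiteIndex

lemma relIndex_eq_card :
    𝔠.toAddSubgroup.relIndex J.toAddSubgroup = Nat.card (Quo J 𝔠) := rfl

end Coset

/-! ### [CNT-D2] -/

theorem cosetStatement {ρ : logSpace K → ℝ} (hG : GrowthStatement K ρ) (hL : LipStatement K ρ)
    (hρ : IsCutoff K ρ) : CosetStatement K ρ := by
  intro J 𝔠 h𝔠J h𝔠
  have hfin : Finite (Quo J 𝔠) := finite_quo h𝔠
  have : Fintype (Quo J 𝔠) := Fintype.ofFinite _
  -- the bound on the translations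
  set T : ℝ := ∑ q : Quo J 𝔠, ‖emb K (rep J 𝔠 q)‖ with hT
  have hrT : ∀ q : Quo J 𝔠, ‖emb K (rep J 𝔠 q)‖ ≤ T := fun q =>
    Finset.single_le_sum (f := fun q : Quo J 𝔠 => ‖emb K (rep J 𝔠 q)‖)
      (fun _ _ => norm_nonneg _) (Finset.mem_univ q)
  obtain ⟨C', R, hCR⟩ := hL T
  have hCR' : ∀ s : ℝ, 1 ≤ s → s ≤ 2 → ∀ x t : mixedSpace K, ‖t‖ ≤ T → R ≤ ‖x‖ →
      |F K ρ s (x + t) - F K ρ s x| ≤ C' * ‖x‖ ^ ex K := hCR
  set M : ℝ := 2 * (max R 1) ^ (-ex K) + |C'| with hM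
  have hBd : Summable fun γ : 𝔠 => Bd K M (γ : 𝓞 K) := (summable_Bd (K := K) M).subtype _
  refine ⟨(Fintype.card (Quo J 𝔠) : ℝ) * ∑' γ : 𝔠, Bd K M (γ : 𝓞 K), fun s hs1 hs2 => ?_⟩
  -- summability
  have hsJ : Summable fun β : J => F K ρ s (emb K (β : 𝓞 K)) := summableStatement hG s hs1 hs2 J
  have hs𝔠 : Summable fun γ : 𝔠 => F K ρ s (emb K (γ : 𝓞 K)) := summableStatement hG s hs1 hs2 𝔠
  have hprod : Summable fun p : Quo J 𝔠 × 𝔠 =>
      F K ρ s (emb K ((p.2 : 𝓞 K) + rep J 𝔠 p.1)) := by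
    have := (cosetEquiv h𝔠J).summable_iff.mpr hsJ
    exact this
  -- decomposition of `S J`
  have hSJ : S K ρ s J = ∑ q : Quo J 𝔠, ∑' γ : 𝔠, F K ρ s (emb K ((γ : 𝓞 K) + rep J 𝔠 q)) := by
    unfold S
    rw [← (cosetEquiv h𝔠J).tsum_eq (fun β : J => F K ρ s (emb K (β : 𝓞 K)))]
    have h1 : (∑' p : Quo J 𝔠 × 𝔠, F K ρ s (emb K ((cosetEquiv h𝔠J p : J) : 𝓞 K)))
        = ∑' p : Quo J 𝔠 × 𝔠, F K ρ s (emb K ((p.2 : 𝓞 K) + rep J 𝔠 p.1)) := rfl
    rw [h1, hprod.tsum_prod, tsum_fintype]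
  have hrel : ((𝔠.toAddSubgroup.relIndex J.toAddSubgroup : ℕ) : ℝ)
      = (Fintype.card (Quo J 𝔠) : ℝ) := by
    rw [relIndex_eq_card, Nat.card_eq_fintype_card]
  have hS𝔠 : (𝔠.toAddSubgroup.relIndex J.toAddSubgroup : ℝ) * S K ρ s 𝔠
      = ∑ q : Quo J 𝔠, ∑' γ : 𝔠, F K ρ s (emb K (γ : 𝓞 K)) := by
    rw [hrel, Finset.sum_const, Finset.card_univ, nsmul_eq_mul]
    rfl
  rw [hSJ, hS𝔠, ← Finset.sum_sub_distrib]
  have hq : ∀ q : Quo J 𝔠,
      |∑' γ : 𝔠, F K ρ s (emb K ((γ : 𝓞 K) + rep J 𝔠 q)) - ∑' γ : 𝔠, F K ρ s (emb K (γ : 𝓞 K))|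
        ≤ ∑' γ : 𝔠, Bd K M (γ : 𝓞 K) := by
    intro q
    rw [← (hprod.prod_factor q).tsum_sub hs𝔠, ← Real.norm_eq_abs]
    refine tsum_of_norm_bounded hBd.hasSum (fun γ => ?_)
    rw [Real.norm_eq_abs]
    exact diff_bound hρ hCR' hs1.le hs2 (γ : 𝓞 K) (rep J 𝔠 q) (hrT q)
  calc |∑ q : Quo J 𝔠, (∑' γ : 𝔠, F K ρ s (emb K ((γ : 𝓞 K) + rep J 𝔠 q))
          - ∑' γ : 𝔠, F K ρ s (emb K (γ : 𝓞 K)))|
      ≤ ∑ q : Quo J 𝔠, |∑' γ : 𝔠, F K ρ s (emb K ((γ : 𝓞 K) + rep J 𝔠 q))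
          - ∑' γ : 𝔠, F K ρ s (emb K (γ : 𝓞 K))| := Finset.abs_sum_le_sum_abs _ _
    _ ≤ ∑ _q : Quo J 𝔠, ∑' γ : 𝔠, Bd K M (γ : 𝓞 K) := Finset.sum_le_sum fun q _ => hq q
    _ = (Fintype.card (Quo J 𝔠) : ℝ) * ∑' γ : 𝔠, Bd K M (γ : 𝓞 K) := by
        rw [Finset.sum_const, Finset.card_univ, nsmul_eq_mul]

end Fermat.Agent.S14.Cnt.Coset46
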