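/-
S14 / [CNT-A] (helper1): existence of a cutoff function on `logSpace K`
(`Fermat.Agent.S14.Cnt.CutoffStatement K`).

Generic construction: for a full `ℤ`-lattice `L` with `ℤ`-basis `b` in a finite dimensional real
normed space `E`, the product of tent functions `ρ x = ∏ i, tent (repr x i)` (coordinates w.r.t.
the real basis induced by `b`) is nonnegative, `≤ 1`, Lipschitz, boundedly supported, and its
`L`-translates sum to `1`.
-/
import Mathlib
import Fermat.Agent.S14.Cnt.Defs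

set_option autoImplicit false

namespace Fermat.Agent.S14.Cnt.Cutoff

open Module

/-- the tent function `max 0 (1 - |t|)`. -/
noncomputable def tent (t : ℝ) : ℝ := max 0 (1 - |t|)

lemma tent_nonneg (t : ℝ) : 0 ≤ tent t := le_max_left _ _

lemma tent_le_one (t : ℝ) : tent t ≤ 1 :=
  max_le zero_le_one (by linarith [abs_nonneg t])

lemma tent_eq_zero {t : ℝ} (h : 1 ≤ |t|) : tent t = 0 := max_eq_left (by linarith)

lemma abs_lt_one_of_tent_ne_zero {t : ℝ} (h : tent t ≠ 0) : |t| < 1 := by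
  by_contra hc
  exact h (tent_eq_zero (not_lt.mp hc))

lemma tent_of_nonneg {t : ℝ} (h0 : 0 ≤ t) (h1 : t ≤ 1) : tent t = 1 - t := by
  unfold tent
  rw [abs_of_nonneg h0, max_eq_right (by linarith)]

lemma tent_of_nonpos {t : ℝ} (h0 : t ≤ 0) (h1 : -1 ≤ t) : tent t = 1 + t := by
  unfold tent
  rw [abs_of_nonpos h0, max_eq_right (by linarith)]
  ring

lemma tent_lipschitz : LipschitzWith 1 tent := by
  refine LipschitzWith.of_dist_le_mul fun s t => ?_
  rw [NNReal.coe_one, one_mul, Real.dist_eq, Real.dist_eq]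
  unfold tent
  rw [max_comm 0, max_comm 0]
  refine (abs_max_sub_max_le_abs _ _ _).trans ?_
  have : (1 - |s|) - (1 - |t|) = |t| - |s| := by ring
  rw [this, abs_sub_comm s t]
  exact abs_abs_sub_abs_le_abs_sub t s

/-- the two integers `n` for which `tent (t + n)` can be nonzero. -/
noncomputable def supp2 (t : ℝ) : Finset ℤ := {-⌊t⌋ - 1, -⌊t⌋}

lemma tent_add_eq_zero_of_not_mem {t : ℝ} {n : ℤ} (hn : n ∉ supp2 t) : tent (t + n) = 0 := by
  unfold supp2 at hn
  rw [Finset.mem_insert, Finset.mem_singleton, not_or] at hn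
  obtain ⟨h1, h2⟩ := hn
  apply tent_eq_zero
  have hfl := Int.floor_le t
  have hlt := Int.lt_floor_add_one t
  rcases lt_or_gt_of_ne h2 with h | h
  · -- `n ≤ -⌊t⌋ - 2`
    have h3 : n ≤ -⌊t⌋ - 2 := by omega
    have h4 : (n : ℝ) ≤ -(⌊t⌋ : ℝ) - 2 := by exact_mod_cast h3
    rw [abs_of_nonpos (by linarith)]
    linarith
  · have h3 : -⌊t⌋ + 1 ≤ n := by omega
    have h4 : -(⌊t⌋ : ℝ) + 1 ≤ (n : ℝ) := by exact_mod_cast h3
    rw [abs_of_nonneg (by linarith)]
    linarith

lemma sum_supp2 (t : ℝ) : ∑ n ∈ supp2 t, tent (t + n) = 1 := by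
  unfold supp2
  have hne : (-⌊t⌋ - 1 : ℤ) ≠ -⌊t⌋ := by omega
  rw [Finset.sum_pair hne]
  have hfl := Int.floor_le t
  have hlt := Int.lt_floor_add_one t
  have e1 : t + ((-⌊t⌋ - 1 : ℤ) : ℝ) = t - ⌊t⌋ - 1 := by push_cast; ring
  have e2 : t + ((-⌊t⌋ : ℤ) : ℝ) = t - ⌊t⌋ := by push_cast; ring
  rw [e1, e2, tent_of_nonpos (by linarith) (by linarith), tent_of_nonneg (by linarith) (by linarith)]
  ring

lemma hasSum_tent (t : ℝ) : HasSum (fun n : ℤ ↦ tent (t + n)) 1 := by
  have : HasSum (fun n : ℤ ↦ tent (t + n)) (∑ n ∈ supp2 t, tent (t + n)) :=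
    hasSum_sum_of_ne_finset_zero (fun n hn => tent_add_eq_zero_of_not_mem hn)
  rwa [sum_supp2] at this

lemma hasSum_prod_tent {ι : Type*} [Fintype ι] (t : ι → ℝ) :
    HasSum (fun n : ι → ℤ ↦ ∏ i, tent (t i + n i)) 1 := by
  classical
  have h0 : ∀ n : ι → ℤ, n ∉ Fintype.piFinset (fun i => supp2 (t i)) →
      ∏ i, tent (t i + n i) = 0 := by
    intro n hn
    rw [Fintype.mem_piFinset, not_forall] at hn
    obtain ⟨i, hi⟩ := hn
    exact Finset.prod_eq_zero (Finset.mem_univ i) (tent_add_eq_zero_of_not_mem hi)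
  have : HasSum (fun n : ι → ℤ ↦ ∏ i, tent (t i + n i))
      (∑ n ∈ Fintype.piFinset (fun i => supp2 (t i)), ∏ i, tent (t i + n i)) :=
    hasSum_sum_of_ne_finset_zero h0
  have e : ∑ n ∈ Fintype.piFinset (fun i => supp2 (t i)), ∏ i, tent (t i + n i) = 1 := by
    rw [← Finset.prod_univ_sum (fun i => supp2 (t i)) (fun i (j : ℤ) => tent (t i + j))]
    simp [sum_supp2]
  rwa [e] at this

/-- a finite product of `[0,1]`-valued Lipschitz functions is Lipschitz. -/
lemma lipschitz_prod {α : Type*} [PseudoMetricSpace α] {ι : Type*} (s : Finset ι)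
    (f : ι → α → ℝ) (C : ι → NNReal) (h0 : ∀ i x, 0 ≤ f i x) (h1 : ∀ i x, f i x ≤ 1)
    (hL : ∀ i, LipschitzWith (C i) (f i)) :
    LipschitzWith (∑ i ∈ s, C i) (fun x ↦ ∏ i ∈ s, f i x) := by
  classical
  induction s using Finset.induction_on with
  | empty =>
    simp only [Finset.prod_empty, Finset.sum_empty]
    exact LipschitzWith.const 1
  | insert a s ha ih =>
    refine LipschitzWith.of_dist_le_mul fun x y => ?_
    simp only [Finset.prod_insert ha, Finset.sum_insert ha]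
    rw [Real.dist_eq]
    have hP0 : ∀ z, 0 ≤ ∏ i ∈ s, f i z := fun z => Finset.prod_nonneg fun i _ => h0 i z
    have hP1 : ∀ z, ∏ i ∈ s, f i z ≤ 1 := fun z =>
      Finset.prod_le_one (fun i _ => h0 i z) (fun i _ => h1 i z)
    have ea : |f a x - f a y| ≤ C a * dist x y := by
      rw [← Real.dist_eq]; exact (hL a).dist_le_mul x y
    have eP : |∏ i ∈ s, f i x - ∏ i ∈ s, f i y| ≤ (∑ i ∈ s, C i : NNReal) * dist x y := by
      rw [← Real.dist_eq]; exact ih.dist_le_mul x y
    have key : f a x * ∏ i ∈ s, f i x - f a y * ∏ i ∈ s, f i y =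
        (f a x - f a y) * ∏ i ∈ s, f i x + f a y * (∏ i ∈ s, f i x - ∏ i ∈ s, f i y) := by ring
    rw [key]
    refine (abs_add_le _ _).trans ?_
    rw [abs_mul, abs_mul, abs_of_nonneg (hP0 x), abs_of_nonneg (h0 a y)]
    have hd : 0 ≤ dist x y := dist_nonneg
    have t1 : |f a x - f a y| * ∏ i ∈ s, f i x ≤ C a * dist x y := by
      calc |f a x - f a y| * ∏ i ∈ s, f i x ≤ |f a x - f a y| * 1 :=
            mul_le_mul_of_nonneg_left (hP1 x) (abs_nonneg _)
        _ = |f a x - f a y| := mul_one _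
        _ ≤ C a * dist x y := ea
    have t2 : f a y * |∏ i ∈ s, f i x - ∏ i ∈ s, f i y| ≤ (∑ i ∈ s, C i : NNReal) * dist x y := by
      calc f a y * |∏ i ∈ s, f i x - ∏ i ∈ s, f i y|
          ≤ 1 * |∏ i ∈ s, f i x - ∏ i ∈ s, f i y| :=
            mul_le_mul_of_nonneg_right (h1 a y) (abs_nonneg _)
        _ = |∏ i ∈ s, f i x - ∏ i ∈ s, f i y| := one_mul _
        _ ≤ _ := eP
    push_cast at t2 ⊢
    nlinarith [t1, t2]

section lattice

variable {E : Type*} [NormedAddCommGroup E] [NormedSpace ℝ E] [FiniteDimensional ℝ E]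
  (L : Submodule ℤ E) [DiscreteTopology L] [IsZLattice ℝ L] {ι : Type*} [Fintype ι]
  (b : Basis ι ℤ L)

/-- the product of tent functions in the coordinates of the real basis induced by `b`. -/
noncomputable def rho (x : E) : ℝ := ∏ i, tent ((b.ofZLatticeBasis ℝ L).repr x i)

lemma rho_nonneg (x : E) : 0 ≤ rho L b x := Finset.prod_nonneg fun _ _ => tent_nonneg _

lemma rho_le_one (x : E) : rho L b x ≤ 1 :=
  Finset.prod_le_one (fun _ _ => tent_nonneg _) (fun _ _ => tent_le_one _)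

lemma rho_lipschitz : ∃ C : NNReal, LipschitzWith C (rho L b) := by
  let φ : ι → E →L[ℝ] ℝ := fun i => LinearMap.toContinuousLinearMap ((b.ofZLatticeBasis ℝ L).coord i)
  refine ⟨∑ i, 1 * ‖φ i‖₊, ?_⟩
  have := lipschitz_prod (Finset.univ : Finset ι)
    (fun i (x : E) => tent ((b.ofZLatticeBasis ℝ L).repr x i)) (fun i => 1 * ‖φ i‖₊)
    (fun _ _ => tent_nonneg _) (fun _ _ => tent_le_one _)
    (fun i => by
      have h := tent_lipschitz.comp (φ i).lipschitz
      exact h)
  exact this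

lemma rho_bounded_support :
    ∃ B : ℝ, ∀ x : E, B < ‖x‖ → rho L b x = 0 := by
  refine ⟨∑ i, ‖(b.ofZLatticeBasis ℝ L) i‖, fun x hx => ?_⟩
  by_contra hne
  have hall : ∀ i, |(b.ofZLatticeBasis ℝ L).repr x i| < 1 := by
    intro i
    apply abs_lt_one_of_tent_ne_zero
    exact (Finset.prod_ne_zero_iff.mp hne) i (Finset.mem_univ i)
  have hsum : x = ∑ i, (b.ofZLatticeBasis ℝ L).repr x i • (b.ofZLatticeBasis ℝ L) i :=
    ((b.ofZLatticeBasis ℝ L).sum_repr x).symm
  have : ‖x‖ ≤ ∑ i, ‖(b.ofZLatticeBasis ℝ L) i‖ := by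
    conv_lhs => rw [hsum]
    refine (norm_sum_le _ _).trans (Finset.sum_le_sum fun i _ => ?_)
    rw [norm_smul, Real.norm_eq_abs]
    calc |(b.ofZLatticeBasis ℝ L).repr x i| * ‖(b.ofZLatticeBasis ℝ L) i‖
        ≤ 1 * ‖(b.ofZLatticeBasis ℝ L) i‖ :=
          mul_le_mul_of_nonneg_right (hall i).le (norm_nonneg _)
      _ = _ := one_mul _
  linarith

lemma rho_hasSum (x : E) : HasSum (fun l : L ↦ rho L b (x + (l : E))) 1 := by
  have h := hasSum_prod_tent (fun i => (b.ofZLatticeBasis ℝ L).repr x i)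
  have h' := (b.equivFun.toEquiv.hasSum_iff).mpr h
  convert h' using 1
  funext l
  simp only [Function.comp_apply, rho, map_add, Finsupp.coe_add, Pi.add_apply,
    Basis.ofZLatticeBasis_repr_apply, LinearEquiv.coe_toEquiv, Basis.equivFun_apply]

end lattice

open NumberField NumberField.Units NumberField.Units.dirichletUnitTheorem

open scoped Classical in
/-- [CNT-A] -/
theorem cutoffStatement (K : Type*) [Field K] [NumberField K] : CutoffStatement K :=
  ⟨rho (unitLattice K) (basisUnitLattice K),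
    { nonneg := rho_nonneg _ _
      le_one := rho_le_one _ _
      lipschitz := rho_lipschitz _ _
      bounded_support := rho_bounded_support _ _
      hasSum := rho_hasSum _ _ }⟩

end Fermat.Agent.S14.Cnt.Cutoff
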