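import Mathlib

/-!
# S14 / [CNT] : partial zeta functions of ideal classes differ by a bounded function on (1,2]

Integral-free, frontier-free proof.  This file only fixes the definitions and the
interfaces (`Prop`-valued statements) of the sub-packages:

* `CutoffStatement`   [CNT-A]  a Lipschitz, compactly supported partition of unity `ρ` for the
  unit lattice acting on `logSpace K`.
* `GrowthStatement`, `LipStatement`   [CNT-C]  decay and local Lipschitz estimates for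
  `F ρ s x = ρ (logMap x) * (norm x) ^ (-s)` on the mixed space.
* `FormulaStatement`  [CNT-B]  `∑_{β ∈ J} F ρ s β = w * N(J)^(-s) * ζ(s, [J]⁻¹)`.
* `CosetStatement`    [CNT-D]  `|S(J) - [J : 𝔠] * S(𝔠)| ≤ C` uniformly in `s ∈ (1,2]`, `𝔠 ≤ J`.
* final assembly      [CNT-E].
-/

namespace Fermat.Agent.S14.Cnt

open NumberField NumberField.InfinitePlace NumberField.mixedEmbedding NumberField.Units
  NumberField.Units.dirichletUnitTheorem NumberField.mixedEmbedding.fundamentalCone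
open scoped nonZeroDivisors Classical

variable (K : Type*) [Field K] [NumberField K]

/-- A cutoff function on the logarithmic space: a nonnegative, bounded by one, Lipschitz,
boundedly supported function whose translates by the unit lattice sum to one. -/
structure IsCutoff (ρ : logSpace K → ℝ) : Prop where
  nonneg : ∀ x, 0 ≤ ρ x
  le_one : ∀ x, ρ x ≤ 1
  lipschitz : ∃ L : NNReal, LipschitzWith L ρ
  bounded_support : ∃ B : ℝ, ∀ x, B < ‖x‖ → ρ x = 0
  hasSum : ∀ x, HasSum (fun l : unitLattice K ↦ ρ (x + (l : logSpace K))) 1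

/-- [CNT-A] -/
def CutoffStatement : Prop := ∃ ρ : logSpace K → ℝ, IsCutoff K ρ

/-- The weight function on the mixed space. -/
noncomputable def F (ρ : logSpace K → ℝ) (s : ℝ) (x : mixedSpace K) : ℝ :=
  ρ (logMap x) * (mixedEmbedding.norm x) ^ (-s)

/-- The embedding of the ring of integers in the mixed space. -/
noncomputable def emb (β : 𝓞 K) : mixedSpace K := mixedEmbedding K (β : K)

/-- The lattice sum attached to an integral ideal. -/
noncomputable def S (ρ : logSpace K → ℝ) (s : ℝ) (J : Ideal (𝓞 K)) : ℝ :=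
  ∑' β : J, F K ρ s (emb K (β : 𝓞 K))

/-- The partial zeta function of an ideal class at a real argument. -/
noncomputable def classZeta (c : ClassGroup (𝓞 K)) (s : ℝ) : ℝ :=
  ∑' I : {I : (Ideal (𝓞 K))⁰ // ClassGroup.mk0 I = c},
    ((Ideal.absNorm (I.1 : Ideal (𝓞 K)) : ℝ)) ^ (-s)

/-- [CNT-C1] decay of `F`: `|F ρ s x| ≤ C ‖x‖^(-d s)`, uniformly for `s ∈ [1,2]`. -/
def GrowthStatement (ρ : logSpace K → ℝ) : Prop :=
  ∃ C : ℝ, ∀ s : ℝ, 1 ≤ s → s ≤ 2 → ∀ x : mixedSpace K,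
    |F K ρ s x| ≤ C * ‖x‖ ^ (-(Module.finrank ℚ K : ℝ) * s)

/-- [CNT-C2] local Lipschitz estimate for `F`:
`|F ρ s (x + t) - F ρ s x| ≤ C ‖x‖^(-(d+1))` for `‖t‖ ≤ T`, `‖x‖ ≥ R`, uniformly for
`s ∈ [1,2]`. -/
def LipStatement (ρ : logSpace K → ℝ) : Prop :=
  ∀ T : ℝ, ∃ C R : ℝ, ∀ s : ℝ, 1 ≤ s → s ≤ 2 → ∀ x t : mixedSpace K, ‖t‖ ≤ T → R ≤ ‖x‖ →
    |F K ρ s (x + t) - F K ρ s x| ≤ C * ‖x‖ ^ (-((Module.finrank ℚ K : ℝ) + 1))

/-- [CNT-B] the lattice sum over `J` computes the partial zeta function of the class `[J]⁻¹`. -/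
def FormulaStatement (ρ : logSpace K → ℝ) : Prop :=
  ∀ (s : ℝ), 1 < s → ∀ (J : (Ideal (𝓞 K))⁰) (c : ClassGroup (𝓞 K)), ClassGroup.mk0 J = c⁻¹ →
    Summable (fun β : (J : Ideal (𝓞 K)) ↦ F K ρ s (emb K (β : 𝓞 K))) →
    Summable (fun I : {I : (Ideal (𝓞 K))⁰ // ClassGroup.mk0 I = c} ↦
      ((Ideal.absNorm (I.1 : Ideal (𝓞 K)) : ℝ)) ^ (-s)) ∧
    S K ρ s J = torsionOrder K * ((Ideal.absNorm (J : Ideal (𝓞 K)) : ℝ)) ^ (-s) * classZeta K c s

/-- [CNT-D1] summability of the lattice sums. -/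
def SummableStatement (ρ : logSpace K → ℝ) : Prop :=
  ∀ (s : ℝ), 1 < s → s ≤ 2 → ∀ J : Ideal (𝓞 K),
    Summable (fun β : J ↦ F K ρ s (emb K (β : 𝓞 K)))

/-- [CNT-D2] comparison of the lattice sum over `J` with the one over a sub-ideal `𝔠`. -/
def CosetStatement (ρ : logSpace K → ℝ) : Prop :=
  ∀ (J 𝔠 : Ideal (𝓞 K)), 𝔠 ≤ J → 𝔠 ≠ ⊥ → ∃ C : ℝ, ∀ s : ℝ, 1 < s → s ≤ 2 →
    |S K ρ s J - (𝔠.toAddSubgroup.relIndex J.toAddSubgroup : ℝ) * S K ρ s 𝔠| ≤ C

/-- [CNT-E] the target: the partial zeta functions of two classes differ by a bounded function. -/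
def ClassZetaStatement : Prop :=
  (∀ (c : ClassGroup (𝓞 K)) (s : ℝ), 1 < s →
    Summable (fun I : {I : (Ideal (𝓞 K))⁰ // ClassGroup.mk0 I = c} ↦
      ((Ideal.absNorm (I.1 : Ideal (𝓞 K)) : ℝ)) ^ (-s))) ∧
  ∃ C : ℝ, ∀ (c c' : ClassGroup (𝓞 K)) (s : ℝ), 1 < s → s ≤ 2 →
    |classZeta K c s - classZeta K c' s| ≤ C

end Fermat.Agent.S14.Cnt
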