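import Fermat.Agent.S14.Cnt.Defs

/-!
# S14 / [CNT-E] : assembly

From a cutoff `ρ` together with `SummableStatement`, `CosetStatement` and `FormulaStatement`
we deduce `ClassZetaStatement K` and the boundedness of class-group `L`-series.
-/

namespace Fermat.Agent.S14.Cnt

open NumberField NumberField.InfinitePlace NumberField.mixedEmbedding NumberField.Units
  NumberField.Units.dirichletUnitTheorem NumberField.mixedEmbedding.fundamentalCone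
open scoped nonZeroDivisors Classical

namespace Final

/-! ### Elementary real inequalities -/

theorem rpow_sub_one_le {a t : ℝ} (ha : 1 ≤ a) (ht0 : 0 ≤ t) (ht1 : t ≤ 1) :
    a ^ t - 1 ≤ t * (a - 1) := by
  have h := Real.geom_mean_le_arith_mean2_weighted ht0 (sub_nonneg.mpr ht1)
    (by linarith : (0 : ℝ) ≤ a) zero_le_one (by ring)
  rw [Real.one_rpow, mul_one] at h
  linarith

theorem one_le_rpow_of_one_le {a t : ℝ} (ha : 1 ≤ a) (ht0 : 0 ≤ t) : 1 ≤ a ^ t :=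
  Real.one_le_rpow ha ht0

theorem abs_rpow_sub_rpow_le {a b t : ℝ} (ha : 1 ≤ a) (hb : 1 ≤ b) (ht0 : 0 ≤ t) (ht1 : t ≤ 1) :
    |a ^ t - b ^ t| ≤ t * (a + b) := by
  have h1 := rpow_sub_one_le ha ht0 ht1
  have h2 := rpow_sub_one_le hb ht0 ht1
  have h3 := one_le_rpow_of_one_le ha ht0
  have h4 := one_le_rpow_of_one_le hb ht0
  rw [abs_le]
  constructor <;> nlinarith

theorem half_le_one_sub_two_rpow {d t : ℝ} (hd : 1 ≤ d) (ht0 : 0 ≤ t) (ht1 : t ≤ 1) :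
    t / 2 ≤ 1 - (2 : ℝ) ^ (-(d * t)) := by
  have hp : (0 : ℝ) ≤ (2 : ℝ) ^ (-d) := Real.rpow_nonneg (by norm_num) _
  have h := Real.geom_mean_le_arith_mean2_weighted ht0 (sub_nonneg.mpr ht1) hp zero_le_one
    (by ring)
  rw [Real.one_rpow, mul_one, ← Real.rpow_mul (by norm_num : (0 : ℝ) ≤ 2)] at h
  have e : -d * t = -(d * t) := by ring
  rw [e] at h
  have hhalf : (2 : ℝ) ^ (-d) ≤ 1 / 2 := by
    have : (2 : ℝ) ^ (-d) ≤ (2 : ℝ) ^ (-1 : ℝ) :=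
      Real.rpow_le_rpow_of_exponent_le (by norm_num) (by linarith)
    rw [Real.rpow_neg_one] at this
    linarith
  nlinarith


variable {K : Type*} [Field K] [NumberField K]

/-! ### Homogeneity -/

theorem F_smul (ρ : logSpace K → ℝ) {s : ℝ} (hs : 1 < s) {c : ℝ} (hc : 0 < c) (x : mixedSpace K) :
    F K ρ s (c • x) = c ^ (-((Module.finrank ℚ K : ℝ) * s)) * F K ρ s x := by
  by_cases hx : mixedEmbedding.norm x = 0
  · have h1 : mixedEmbedding.norm (c • x) = 0 := by rw [mixedEmbedding.norm_smul, hx, mul_zero]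
    simp only [F, h1, hx, Real.zero_rpow (by linarith : -s ≠ 0), mul_zero]
  · simp only [F]
    rw [logMap_real_smul hx hc.ne', mixedEmbedding.norm_smul, abs_of_pos hc,
      Real.mul_rpow (pow_nonneg hc.le _) (mixedEmbedding.norm_nonneg x), ← Real.rpow_natCast,
      ← Real.rpow_mul hc.le]
    have e : (Module.finrank ℚ K : ℝ) * -s = -((Module.finrank ℚ K : ℝ) * s) := by ring
    rw [e]
    ring

theorem emb_two_mul (γ : 𝓞 K) : emb K (2 * γ) = (2 : ℝ) • emb K γ := by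
  simp only [emb, map_mul, map_ofNat]
  rw [two_smul, two_mul]

/-- The bijection `𝔠 ≃ 2𝔠`. -/
noncomputable def twoEquiv (𝔠 : Ideal (𝓞 K)) :
    𝔠 ≃ (Ideal.span {(2 : 𝓞 K)} * 𝔠 : Ideal (𝓞 K)) where
  toFun γ := ⟨2 * (γ : 𝓞 K), Ideal.mul_mem_mul (Ideal.mem_span_singleton_self _) γ.2⟩
  invFun β := ⟨(Ideal.mem_span_singleton_mul.mp β.2).choose,
    (Ideal.mem_span_singleton_mul.mp β.2).choose_spec.1⟩
  left_inv γ := by
    have h := (Ideal.mem_span_singleton_mul.mp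
      (Ideal.mul_mem_mul (Ideal.mem_span_singleton_self (2 : 𝓞 K)) γ.2)).choose_spec.2
    apply Subtype.ext
    exact mul_left_cancel₀ (two_ne_zero) h
  right_inv β := by
    apply Subtype.ext
    exact (Ideal.mem_span_singleton_mul.mp β.2).choose_spec.2

theorem S_two_mul (ρ : logSpace K → ℝ) {s : ℝ} (hs : 1 < s) (𝔠 : Ideal (𝓞 K)) :
    S K ρ s (Ideal.span {(2 : 𝓞 K)} * 𝔠) =
      (2 : ℝ) ^ (-((Module.finrank ℚ K : ℝ) * s)) * S K ρ s 𝔠 := by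
  simp only [S]
  rw [← (twoEquiv 𝔠).tsum_eq, ← tsum_mul_left]
  refine tsum_congr fun γ => ?_
  simp only [twoEquiv, Equiv.coe_fn_mk]
  rw [emb_two_mul, F_smul ρ hs (by norm_num)]


/-! ### Index computations -/

theorem relIndex_mul_absNorm {𝔠 J : Ideal (𝓞 K)} (h : 𝔠 ≤ J) :
    𝔠.toAddSubgroup.relIndex J.toAddSubgroup * Ideal.absNorm J = Ideal.absNorm 𝔠 := by
  have := AddSubgroup.relIndex_mul_index (H := 𝔠.toAddSubgroup) (K := J.toAddSubgroup)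
    (Submodule.toAddSubgroup_mono h)
  simpa [Ideal.absNorm_apply, Submodule.cardQuot] using this

theorem relIndex_mul_eq (J₁ J₂ : (Ideal (𝓞 K))⁰) :
    ((J₁ : Ideal (𝓞 K)) * J₂).toAddSubgroup.relIndex (J₁ : Ideal (𝓞 K)).toAddSubgroup =
      Ideal.absNorm (J₂ : Ideal (𝓞 K)) := by
  have h := relIndex_mul_absNorm (Ideal.mul_le_left : (J₁ : Ideal (𝓞 K)) * J₂ ≤ J₁)
  rw [map_mul, mul_comm (Ideal.absNorm (J₁ : Ideal (𝓞 K)))] at h
  exact Nat.eq_of_mul_eq_mul_right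
    (Nat.pos_of_ne_zero (Ideal.absNorm_ne_zero_of_nonZeroDivisors J₁)) h

theorem absNorm_span_two :
    Ideal.absNorm (Ideal.span {(2 : 𝓞 K)}) = 2 ^ Module.finrank ℚ K := by
  rw [Ideal.absNorm_span_singleton]
  have : (2 : 𝓞 K) = algebraMap ℤ (𝓞 K) 2 := by simp
  rw [this, Algebra.norm_algebraMap, RingOfIntegers.rank]
  simp [Int.natAbs_pow]

theorem relIndex_two_mul {𝔠 : Ideal (𝓞 K)} (h𝔠 : 𝔠 ≠ ⊥) :
    (Ideal.span {(2 : 𝓞 K)} * 𝔠).toAddSubgroup.relIndex 𝔠.toAddSubgroup =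
      2 ^ Module.finrank ℚ K := by
  have h := relIndex_mul_absNorm (Ideal.mul_le_right : Ideal.span {(2 : 𝓞 K)} * 𝔠 ≤ 𝔠)
  rw [map_mul, absNorm_span_two] at h
  have h0 : Ideal.absNorm 𝔠 ≠ 0 := by
    rw [Ne, Ideal.absNorm_eq_zero_iff]
    exact h𝔠
  exact Nat.eq_of_mul_eq_mul_right (Nat.pos_of_ne_zero h0) h


/-! ### The bound `S 𝔠 ≤ C / (s - 1)` -/

theorem S_nonneg {ρ : logSpace K → ℝ} (hρ : IsCutoff K ρ) (s : ℝ) (J : Ideal (𝓞 K)) :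
    0 ≤ S K ρ s J :=
  tsum_nonneg fun _ =>
    mul_nonneg (hρ.nonneg _) (Real.rpow_nonneg (mixedEmbedding.norm_nonneg _) _)

theorem S_bound {ρ : logSpace K → ℝ} (hρ : IsCutoff K ρ) (hCos : CosetStatement K ρ)
    {𝔠 : Ideal (𝓞 K)} (h𝔠 : 𝔠 ≠ ⊥) :
    ∃ C : ℝ, 0 ≤ C ∧ ∀ s : ℝ, 1 < s → s ≤ 2 → (s - 1) * S K ρ s 𝔠 ≤ C := by
  have h2 : Ideal.span {(2 : 𝓞 K)} * 𝔠 ≠ ⊥ := by
    refine mul_ne_zero ?_ h𝔠
    rw [Ne, Ideal.zero_eq_bot, Ideal.span_singleton_eq_bot]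
    exact two_ne_zero
  obtain ⟨C₃, hC₃⟩ := hCos 𝔠 (Ideal.span {(2 : 𝓞 K)} * 𝔠) Ideal.mul_le_right h2
  refine ⟨2 * |C₃|, by positivity, ?_⟩
  intro s hs1 hs2
  have h := hC₃ s hs1 hs2
  have hd1 : (1 : ℝ) ≤ (Module.finrank ℚ K : ℝ) := by
    have : 1 ≤ Module.finrank ℚ K := Module.finrank_pos
    exact_mod_cast this
  rw [relIndex_two_mul h𝔠, S_two_mul ρ hs1, Nat.cast_pow, Nat.cast_ofNat, ← mul_assoc,
    ← Real.rpow_natCast, ← Real.rpow_add (by norm_num : (0 : ℝ) < 2)] at h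
  have e : (Module.finrank ℚ K : ℝ) + -((Module.finrank ℚ K : ℝ) * s) =
      -((Module.finrank ℚ K : ℝ) * (s - 1)) := by ring
  rw [e] at h
  have h3 := half_le_one_sub_two_rpow hd1 (by linarith : (0 : ℝ) ≤ s - 1) (by linarith)
  have hS := S_nonneg hρ s 𝔠
  have h4 := (abs_le.mp h).2
  have h5 : (s - 1) / 2 * S K ρ s 𝔠 ≤
      (1 - (2 : ℝ) ^ (-((Module.finrank ℚ K : ℝ) * (s - 1)))) * S K ρ s 𝔠 :=
    mul_le_mul_of_nonneg_right h3 hS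
  have h6 := le_abs_self C₃
  nlinarith


/-! ### The main comparison -/

theorem absNorm_one_le (J : (Ideal (𝓞 K))⁰) : (1 : ℝ) ≤ (Ideal.absNorm (J : Ideal (𝓞 K)) : ℝ) := by
  have : 1 ≤ Ideal.absNorm (J : Ideal (𝓞 K)) :=
    Nat.one_le_iff_ne_zero.mpr (Ideal.absNorm_ne_zero_of_nonZeroDivisors J)
  exact_mod_cast this

theorem classZeta_sub_le {ρ : logSpace K → ℝ} (hρ : IsCutoff K ρ) (hSum : SummableStatement K ρ)
    (hCos : CosetStatement K ρ) (hForm : FormulaStatement K ρ) (c₁ c₂ : ClassGroup (𝓞 K)) :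
    ∃ C : ℝ, 0 ≤ C ∧ ∀ s : ℝ, 1 < s → s ≤ 2 → |classZeta K c₁ s - classZeta K c₂ s| ≤ C := by
  obtain ⟨J₁, hJ₁⟩ := ClassGroup.mk0_surjective c₁⁻¹
  obtain ⟨J₂, hJ₂⟩ := ClassGroup.mk0_surjective c₂⁻¹
  have h𝔠 : (J₁ : Ideal (𝓞 K)) * J₂ ≠ ⊥ :=
    mul_ne_zero (nonZeroDivisors.coe_ne_zero J₁) (nonZeroDivisors.coe_ne_zero J₂)
  obtain ⟨C₁, hC₁⟩ := hCos J₁ ((J₁ : Ideal (𝓞 K)) * J₂) Ideal.mul_le_left h𝔠
  obtain ⟨C₂, hC₂⟩ := hCos J₂ ((J₁ : Ideal (𝓞 K)) * J₂) Ideal.mul_le_right h𝔠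
  obtain ⟨C₄, hC₄0, hC₄⟩ := S_bound hρ hCos h𝔠
  have hr₁ := relIndex_mul_eq J₁ J₂
  have hr₂ := relIndex_mul_eq J₂ J₁
  rw [mul_comm (J₂ : Ideal (𝓞 K))] at hr₂
  set N₁ : ℝ := (Ideal.absNorm (J₁ : Ideal (𝓞 K)) : ℝ) with hN₁
  set N₂ : ℝ := (Ideal.absNorm (J₂ : Ideal (𝓞 K)) : ℝ) with hN₂
  have hN₁1 : 1 ≤ N₁ := absNorm_one_le J₁
  have hN₂1 : 1 ≤ N₂ := absNorm_one_le J₂
  set w : ℝ := (torsionOrder K : ℝ) with hw
  have hw1 : 1 ≤ w := by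
    have : 1 ≤ torsionOrder K := torsionOrder_pos K
    rw [hw]; exact_mod_cast this
  refine ⟨N₁ ^ 2 * |C₁| + N₂ ^ 2 * |C₂| + N₁ * N₂ * (N₁ + N₂) * C₄, by positivity, ?_⟩
  intro s hs1 hs2
  have f1 : S K ρ s J₁ = w * N₁ ^ (-s) * classZeta K c₁ s :=
    (hForm s hs1 J₁ c₁ hJ₁ (hSum s hs1 hs2 J₁)).2
  have f2 : S K ρ s J₂ = w * N₂ ^ (-s) * classZeta K c₂ s :=
    (hForm s hs1 J₂ c₂ hJ₂ (hSum s hs1 hs2 J₂)).2
  have g1 : |S K ρ s J₁ - N₂ * S K ρ s ((J₁ : Ideal (𝓞 K)) * J₂)| ≤ C₁ := by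
    have := hC₁ s hs1 hs2
    rwa [hr₁] at this
  have g2 : |S K ρ s J₂ - N₁ * S K ρ s ((J₁ : Ideal (𝓞 K)) * J₂)| ≤ C₂ := by
    have := hC₂ s hs1 hs2
    rwa [hr₂] at this
  have g4 := hC₄ s hs1 hs2
  set A := S K ρ s J₁ with hA
  set B := S K ρ s J₂ with hB
  set Sc := S K ρ s ((J₁ : Ideal (𝓞 K)) * J₂) with hSc
  set z₁ := classZeta K c₁ s
  set z₂ := classZeta K c₂ s
  have hSc0 : 0 ≤ Sc := S_nonneg hρ s _
  have hN₁pos : 0 < N₁ := by linarith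
  have hN₂pos : 0 < N₂ := by linarith
  -- `w z_i = N_i^s * S J_i`
  have e1 : w * z₁ = N₁ ^ s * A := by
    rw [f1, Real.rpow_neg hN₁pos.le]
    field_simp
  have e2 : w * z₂ = N₂ ^ s * B := by
    rw [f2, Real.rpow_neg hN₂pos.le]
    field_simp
  -- powers
  have p1 : N₁ ^ s = N₁ * N₁ ^ (s - 1) := by
    rw [← Real.rpow_one_add' hN₁pos.le (by linarith)]; congr 1; ring
  have p2 : N₂ ^ s = N₂ * N₂ ^ (s - 1) := by
    rw [← Real.rpow_one_add' hN₂pos.le (by linarith)]; congr 1; ring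
  have q1 : N₁ ^ s ≤ N₁ ^ 2 := by
    rw [← Real.rpow_two]
    exact Real.rpow_le_rpow_of_exponent_le hN₁1 hs2
  have q2 : N₂ ^ s ≤ N₂ ^ 2 := by
    rw [← Real.rpow_two]
    exact Real.rpow_le_rpow_of_exponent_le hN₂1 hs2
  have q1' : 0 ≤ N₁ ^ s := Real.rpow_nonneg hN₁pos.le _
  have q2' : 0 ≤ N₂ ^ s := Real.rpow_nonneg hN₂pos.le _
  have hdiff := abs_rpow_sub_rpow_le hN₁1 hN₂1 (by linarith : (0 : ℝ) ≤ s - 1) (by linarith)
  -- decomposition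
  have key : w * (z₁ - z₂) = N₁ ^ s * (A - N₂ * Sc) - N₂ ^ s * (B - N₁ * Sc) +
      N₁ * N₂ * (N₁ ^ (s - 1) - N₂ ^ (s - 1)) * Sc := by
    rw [mul_sub, e1, e2]
    conv_rhs => rw [mul_sub (N₁ ^ s), mul_sub (N₂ ^ s)]
    rw [p1, p2]
    ring
  have t1 : |N₁ ^ s * (A - N₂ * Sc)| ≤ N₁ ^ 2 * |C₁| := by
    rw [abs_mul, abs_of_nonneg q1']
    exact mul_le_mul q1 (g1.trans (le_abs_self _)) (abs_nonneg _) (by positivity)
  have t2 : |N₂ ^ s * (B - N₁ * Sc)| ≤ N₂ ^ 2 * |C₂| := by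
    rw [abs_mul, abs_of_nonneg q2']
    exact mul_le_mul q2 (g2.trans (le_abs_self _)) (abs_nonneg _) (by positivity)
  have t3 : |N₁ * N₂ * (N₁ ^ (s - 1) - N₂ ^ (s - 1)) * Sc| ≤ N₁ * N₂ * (N₁ + N₂) * C₄ := by
    rw [abs_mul, abs_mul, abs_of_nonneg hSc0, abs_of_nonneg (by positivity : 0 ≤ N₁ * N₂)]
    calc N₁ * N₂ * |N₁ ^ (s - 1) - N₂ ^ (s - 1)| * Sc
        ≤ N₁ * N₂ * ((s - 1) * (N₁ + N₂)) * Sc :=
          mul_le_mul_of_nonneg_right (mul_le_mul_of_nonneg_left hdiff (by positivity)) hSc0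
      _ = N₁ * N₂ * (N₁ + N₂) * ((s - 1) * Sc) := by ring
      _ ≤ N₁ * N₂ * (N₁ + N₂) * C₄ := mul_le_mul_of_nonneg_left g4 (by positivity)
  have hwz : |w * (z₁ - z₂)| ≤ N₁ ^ 2 * |C₁| + N₂ ^ 2 * |C₂| + N₁ * N₂ * (N₁ + N₂) * C₄ := by
    rw [key]
    refine (abs_add_le _ _).trans (add_le_add ((abs_sub _ _).trans (add_le_add t1 t2)) t3)
  calc |z₁ - z₂| = 1 * |z₁ - z₂| := (one_mul _).symm
    _ ≤ w * |z₁ - z₂| := mul_le_mul_of_nonneg_right hw1 (abs_nonneg _)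
    _ = |w * (z₁ - z₂)| := by rw [abs_mul, abs_of_nonneg (by linarith : (0 : ℝ) ≤ w)]
    _ ≤ _ := hwz


end Final

open Final

variable {K : Type*} [Field K] [NumberField K]

/-- [CNT-E] assembly of the sub-packages. -/
theorem classZetaStatement_of {ρ : logSpace K → ℝ} (hρ : IsCutoff K ρ)
    (hSum : SummableStatement K ρ) (hCos : CosetStatement K ρ) (hForm : FormulaStatement K ρ) :
    ClassZetaStatement K := by
  refine ⟨?_, ?_⟩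
  · intro c s hs
    obtain ⟨J, hJ⟩ := ClassGroup.mk0_surjective c⁻¹
    by_cases hs2 : s ≤ 2
    · exact (hForm s hs J c hJ (hSum s hs hs2 J)).1
    · have h2 := (hForm 2 (by norm_num) J c hJ (hSum 2 (by norm_num) le_rfl J)).1
      refine Summable.of_nonneg_of_le (fun I => Real.rpow_nonneg (Nat.cast_nonneg _) _)
        (fun I => ?_) h2
      exact Real.rpow_le_rpow_of_exponent_le (absNorm_one_le I.1) (by linarith)
  · choose C hC0 hC using fun c₁ c₂ => classZeta_sub_le hρ hSum hCos hForm c₁ c₂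
    refine ⟨∑ c₁, ∑ c₂, C c₁ c₂, fun c c' s hs1 hs2 => ?_⟩
    refine (hC c c' s hs1 hs2).trans ?_
    calc C c c' ≤ ∑ c₂, C c c₂ :=
          Finset.single_le_sum (fun i _ => hC0 c i) (Finset.mem_univ c')
      _ ≤ ∑ c₁, ∑ c₂, C c₁ c₂ :=
          Finset.single_le_sum (f := fun c₁ => ∑ c₂, C c₁ c₂)
            (fun i _ => Finset.sum_nonneg fun j _ => hC0 i j) (Finset.mem_univ c)

/-- The class-group `L`-series as a finite combination of partial zeta functions. -/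
theorem hasSum_classL (hZ : ClassZetaStatement K) (ψ : ClassGroup (𝓞 K) → ℂ) {s : ℝ}
    (hs : 1 < s) :
    HasSum (fun I : (Ideal (𝓞 K))⁰ => ψ (ClassGroup.mk0 I) *
        (((Ideal.absNorm (I : Ideal (𝓞 K)) : ℝ) ^ (-s) : ℝ) : ℂ))
      (∑ c, ψ c * (classZeta K c s : ℂ)) := by
  have h1 : ∀ c : ClassGroup (𝓞 K),
      HasSum (fun I : (Ideal (𝓞 K))⁰ => ψ c *
        ((Set.indicator {I : (Ideal (𝓞 K))⁰ | ClassGroup.mk0 I = c}
          (fun I => ((Ideal.absNorm (I : Ideal (𝓞 K)) : ℝ)) ^ (-s)) I : ℝ) : ℂ))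
        (ψ c * (classZeta K c s : ℂ)) := by
    intro c
    refine HasSum.mul_left _ ?_
    rw [Complex.hasSum_ofReal]
    rw [← hasSum_subtype_iff_indicator]
    exact (hZ.1 c s hs).hasSum
  have h2 := hasSum_sum (s := Finset.univ) fun c _ => h1 c
  convert h2 using 2 with I
  rw [Finset.sum_eq_single (ClassGroup.mk0 I)]
  · simp
  · intro c _ hc
    have : I ∉ {I : (Ideal (𝓞 K))⁰ | ClassGroup.mk0 I = c} := fun h => hc h.symm
    simp [Set.indicator_of_notMem this]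
  · intro h
    exact absurd (Finset.mem_univ _) h

/-- Boundedness of class-group `L`-series on `(1,2]` (real-power form). -/
theorem classL_bounded_of (hZ : ClassZetaStatement K) (ψ : ClassGroup (𝓞 K) → ℂ)
    (hψ : ∑ c, ψ c = 0) :
    ∃ B : ℝ, ∀ s : ℝ, 1 < s → s ≤ 2 →
      Summable (fun I : (Ideal (𝓞 K))⁰ => ψ (ClassGroup.mk0 I) *
        (((Ideal.absNorm (I : Ideal (𝓞 K)) : ℝ) ^ (-s) : ℝ) : ℂ)) ∧
      ‖∑' I : (Ideal (𝓞 K))⁰, ψ (ClassGroup.mk0 I) *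
        (((Ideal.absNorm (I : Ideal (𝓞 K)) : ℝ) ^ (-s) : ℝ) : ℂ)‖ ≤ B := by
  obtain ⟨C, hC⟩ := hZ.2
  refine ⟨(∑ c, ‖ψ c‖) * C, fun s hs1 hs2 => ?_⟩
  have hsum := hasSum_classL hZ ψ hs1
  refine ⟨hsum.summable, ?_⟩
  rw [hsum.tsum_eq]
  have e : ∑ c, ψ c * (classZeta K c s : ℂ) =
      ∑ c, ψ c * ((classZeta K c s - classZeta K 1 s : ℝ) : ℂ) := by
    have : ∑ c, ψ c * ((classZeta K c s - classZeta K 1 s : ℝ) : ℂ) =
        ∑ c, ψ c * (classZeta K c s : ℂ) - (∑ c, ψ c) * (classZeta K 1 s : ℂ) := by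
      rw [Finset.sum_mul, ← Finset.sum_sub_distrib]
      refine Finset.sum_congr rfl fun c _ => ?_
      push_cast; ring
    rw [this, hψ, zero_mul, sub_zero]
  rw [e]
  refine (norm_sum_le _ _).trans ?_
  rw [Finset.sum_mul]
  refine Finset.sum_le_sum fun c _ => ?_
  rw [norm_mul, Complex.norm_real, Real.norm_eq_abs]
  exact mul_le_mul_of_nonneg_left (hC c 1 s hs1 hs2) (norm_nonneg _)

/-- Boundedness of class-group `L`-series on `(1,2]` (complex-power form). -/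
theorem classLSeries_bounded_of (hZ : ClassZetaStatement K) (ψ : ClassGroup (𝓞 K) → ℂ)
    (hψ : ∑ c, ψ c = 0) :
    ∃ B : ℝ, ∀ s : ℝ, 1 < s → s ≤ 2 →
      Summable (fun I : (Ideal (𝓞 K))⁰ => ψ (ClassGroup.mk0 I) *
        ((Ideal.absNorm (I : Ideal (𝓞 K)) : ℂ)) ^ (-(s : ℂ))) ∧
      ‖∑' I : (Ideal (𝓞 K))⁰, ψ (ClassGroup.mk0 I) *
        ((Ideal.absNorm (I : Ideal (𝓞 K)) : ℂ)) ^ (-(s : ℂ))‖ ≤ B := by
  obtain ⟨B, hB⟩ := classL_bounded_of hZ ψ hψ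
  refine ⟨B, fun s hs1 hs2 => ?_⟩
  have e : ∀ I : (Ideal (𝓞 K))⁰, ((Ideal.absNorm (I : Ideal (𝓞 K)) : ℂ)) ^ (-(s : ℂ)) =
      (((Ideal.absNorm (I : Ideal (𝓞 K)) : ℝ) ^ (-s) : ℝ) : ℂ) := by
    intro I
    rw [Complex.ofReal_cpow (Nat.cast_nonneg _)]
    push_cast
    rfl
  simp only [e]
  exact hB s hs1 hs2

end Fermat.Agent.S14.Cnt
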