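import Fermat.Agent.S14.Cnt.Defs

/-!
# S14 / [CNT-B] : the lattice sum over an ideal computes a partial zeta function

`formulaStatement : IsCutoff K ρ → FormulaStatement K ρ`.
-/

namespace Fermat.Agent.S14.Cnt.Formula

open NumberField NumberField.InfinitePlace NumberField.mixedEmbedding NumberField.Units
  NumberField.Units.dirichletUnitTheorem NumberField.mixedEmbedding.fundamentalCone
open Fermat.Agent.S14.Cnt
open scoped nonZeroDivisors Classical

variable (K : Type*) [Field K] [NumberField K]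

/-! ### The sum over a unit orbit -/

/-- every element of the unit lattice is the logarithmic embedding of a unit -/
theorem exists_unit_of_mem_unitLattice (l : unitLattice K) :
    ∃ u : (𝓞 K)ˣ, logEmbedding K (Additive.ofMul u) = (l : logSpace K) := by
  obtain ⟨l, hl⟩ := l
  obtain ⟨a, -, ha⟩ := hl
  exact ⟨Additive.toMul a, ha⟩

/-- a chosen unit above a point of the unit lattice -/
noncomputable def liftUnit (l : unitLattice K) : (𝓞 K)ˣ :=
  (exists_unit_of_mem_unitLattice K l).choose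

theorem logEmbedding_liftUnit (l : unitLattice K) :
    logEmbedding K (Additive.ofMul (liftUnit K l)) = (l : logSpace K) :=
  (exists_unit_of_mem_unitLattice K l).choose_spec

theorem logEmbedding_mul (u v : (𝓞 K)ˣ) :
    logEmbedding K (Additive.ofMul (u * v)) =
      logEmbedding K (Additive.ofMul u) + logEmbedding K (Additive.ofMul v) := by
  rw [ofMul_mul, map_add]

theorem logEmbedding_mem_unitLattice (u : (𝓞 K)ˣ) :
    logEmbedding K (Additive.ofMul u) ∈ unitLattice K :=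
  ⟨Additive.ofMul u, trivial, rfl⟩

/-- the units are the product of the unit lattice and of the torsion subgroup -/
noncomputable def unitsEquiv : (unitLattice K) × (torsion K) ≃ (𝓞 K)ˣ :=
  Equiv.ofBijective (fun p ↦ liftUnit K p.1 * (p.2 : (𝓞 K)ˣ)) (by
    constructor
    · rintro ⟨l, t⟩ ⟨l', t'⟩ h
      have h' : liftUnit K l * (t : (𝓞 K)ˣ) = liftUnit K l' * (t' : (𝓞 K)ˣ) := h
      have h1 := congrArg (fun u ↦ logEmbedding K (Additive.ofMul u)) h'
      simp only [logEmbedding_mul, logEmbedding_liftUnit,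
        (logEmbedding_eq_zero_iff (K := K)).mpr t.2, (logEmbedding_eq_zero_iff (K := K)).mpr t'.2,
        add_zero] at h1
      have hl : l = l' := Subtype.ext h1
      subst hl
      have ht : (t : (𝓞 K)ˣ) = t' := mul_left_cancel h'
      exact Prod.ext rfl (Subtype.ext ht)
    · intro u
      let l : unitLattice K := ⟨_, logEmbedding_mem_unitLattice K u⟩
      have ht : (liftUnit K l)⁻¹ * u ∈ torsion K := by
        rw [← logEmbedding_eq_zero_iff, logEmbedding_mul]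
        have h2 : logEmbedding K (Additive.ofMul (liftUnit K l)⁻¹) =
            - logEmbedding K (Additive.ofMul (liftUnit K l)) := by
          rw [ofMul_inv, map_neg]
        rw [h2, logEmbedding_liftUnit]
        simp [l]
      exact ⟨(l, ⟨_, ht⟩), by simp⟩)

theorem logEmbedding_unitsEquiv (p : (unitLattice K) × (torsion K)) :
    logEmbedding K (Additive.ofMul (unitsEquiv K p)) = (p.1 : logSpace K) := by
  have : unitsEquiv K p = liftUnit K p.1 * (p.2 : (𝓞 K)ˣ) := rfl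
  rw [this, logEmbedding_mul, logEmbedding_liftUnit,
    (logEmbedding_eq_zero_iff (K := K)).mpr p.2.2, add_zero]

variable {K}

/-- the sum of a cutoff function over a full orbit of the units -/
theorem hasSum_units {ρ : logSpace K → ℝ} (hρ : IsCutoff K ρ) (x : logSpace K) :
    HasSum (fun u : (𝓞 K)ˣ ↦ ρ (logEmbedding K (Additive.ofMul u) + x)) (torsionOrder K : ℝ) := by
  rw [← (unitsEquiv K).hasSum_iff]
  have h1 : HasSum (fun l : unitLattice K ↦ ρ (x + (l : logSpace K))) 1 := hρ.hasSum x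
  have h2 : HasSum (fun _ : torsion K ↦ (1 : ℝ)) (torsionOrder K : ℝ) := by
    let _ := Fintype.ofFinite (torsion K)
    have := hasSum_fintype (fun _ : torsion K ↦ (1 : ℝ))
    simpa [torsionOrder, Nat.card_eq_fintype_card] using this
  have h3 := h1.mul h2 (Summable.mul_of_nonneg h1.summable h2.summable
    (fun l ↦ hρ.nonneg _) (fun _ ↦ zero_le_one))
  rw [one_mul] at h3
  have h4 : ((fun u : (𝓞 K)ˣ ↦ ρ (logEmbedding K (Additive.ofMul u) + x)) ∘ (unitsEquiv K)) =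
      fun p : (unitLattice K) × (torsion K) ↦ ρ (x + (p.1 : logSpace K)) * 1 := by
    funext p
    simp only [Function.comp_apply, logEmbedding_unitsEquiv, mul_one]
    rw [add_comm]
  rw [h4]
  exact h3


/-! ### Generators of the principal ideals `J * I` -/

variable (J : (Ideal (𝓞 K))⁰) (c : ClassGroup (𝓞 K))

/-- the ideals in the class `c` -/
abbrev Cls (c : ClassGroup (𝓞 K)) : Type _ := {I : (Ideal (𝓞 K))⁰ // ClassGroup.mk0 I = c}

theorem exists_gen (hJ : ClassGroup.mk0 J = c⁻¹) (I : Cls c) :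
    ∃ g : 𝓞 K, g ≠ 0 ∧ (J : Ideal (𝓞 K)) * (I.1 : Ideal (𝓞 K)) = Ideal.span {g} := by
  have h : ClassGroup.mk0 J = (ClassGroup.mk0 I.1)⁻¹ := by rw [hJ, I.2]
  obtain ⟨x, hx, hx'⟩ := ClassGroup.mk0_eq_mk0_inv_iff.mp h
  exact ⟨x, hx, hx'⟩

/-- a chosen generator of `J * I` -/
noncomputable def gen (hJ : ClassGroup.mk0 J = c⁻¹) (I : Cls c) : 𝓞 K :=
  (exists_gen J c hJ I).choose

theorem gen_ne_zero (hJ : ClassGroup.mk0 J = c⁻¹) (I : Cls c) : gen J c hJ I ≠ 0 :=
  (exists_gen J c hJ I).choose_spec.1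

theorem span_gen (hJ : ClassGroup.mk0 J = c⁻¹) (I : Cls c) :
    (J : Ideal (𝓞 K)) * (I.1 : Ideal (𝓞 K)) = Ideal.span {gen J c hJ I} :=
  (exists_gen J c hJ I).choose_spec.2

theorem unit_mul_gen_mem (hJ : ClassGroup.mk0 J = c⁻¹) (I : Cls c) (u : (𝓞 K)ˣ) :
    (u : 𝓞 K) * gen J c hJ I ∈ (J : Ideal (𝓞 K)) := by
  have h1 : gen J c hJ I ∈ (J : Ideal (𝓞 K)) * (I.1 : Ideal (𝓞 K)) := by
    rw [span_gen J c hJ I]; exact Ideal.mem_span_singleton_self _
  have h2 : (J : Ideal (𝓞 K)) * (I.1 : Ideal (𝓞 K)) ≤ (J : Ideal (𝓞 K)) := Ideal.mul_le_left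
  exact Ideal.mul_mem_left _ _ (h2 h1)

/-- the nonzero elements of `J` are the unit multiples of the chosen generators -/
noncomputable def orbitEquiv (hJ : ClassGroup.mk0 J = c⁻¹) :
    Cls c × (𝓞 K)ˣ ≃ {β : (J : Ideal (𝓞 K)) // β ≠ 0} :=
  Equiv.ofBijective
    (fun p ↦ ⟨⟨(p.2 : 𝓞 K) * gen J c hJ p.1, unit_mul_gen_mem J c hJ p.1 p.2⟩, by
      intro h
      have h' : (p.2 : 𝓞 K) * gen J c hJ p.1 = 0 := congrArg Subtype.val h
      exact gen_ne_zero J c hJ p.1 ((Units.mul_right_eq_zero p.2).mp h')⟩) (by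
    constructor
    · rintro ⟨I, u⟩ ⟨I', u'⟩ h
      have h' : (u : 𝓞 K) * gen J c hJ I = (u' : 𝓞 K) * gen J c hJ I' :=
        congrArg (fun β : {β : (J : Ideal (𝓞 K)) // β ≠ 0} ↦ ((β : (J : Ideal (𝓞 K))) : 𝓞 K)) h
      have h1 : Ideal.span {gen J c hJ I} = Ideal.span {gen J c hJ I'} := by
        rw [Ideal.span_singleton_eq_span_singleton]
        refine ⟨u'⁻¹ * u, ?_⟩
        have h7 : ((u'⁻¹ : (𝓞 K)ˣ) : 𝓞 K) * (u' : 𝓞 K) = 1 := by
          rw [← Units.val_mul]; simp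
        calc gen J c hJ I * ((u'⁻¹ * u : (𝓞 K)ˣ) : 𝓞 K)
            = ((u'⁻¹ : (𝓞 K)ˣ) : 𝓞 K) * ((u : 𝓞 K) * gen J c hJ I) := by
              rw [Units.val_mul]; ring
          _ = (((u'⁻¹ : (𝓞 K)ˣ) : 𝓞 K) * (u' : 𝓞 K)) * gen J c hJ I' := by
              rw [h']; ring
          _ = gen J c hJ I' := by rw [h7, one_mul]
      rw [← span_gen, ← span_gen] at h1
      have hJ0 : (J : Ideal (𝓞 K)) ≠ 0 := nonZeroDivisors.coe_ne_zero J
      have h2 : (I.1 : Ideal (𝓞 K)) = I'.1 := mul_left_cancel₀ hJ0 h1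
      have h3 : I = I' := Subtype.ext (Subtype.ext h2)
      subst h3
      have h4 : (u : 𝓞 K) = u' := mul_right_cancel₀ (gen_ne_zero J c hJ I) h'
      exact Prod.ext rfl (Units.ext h4)
    · rintro ⟨⟨β, hβ⟩, hβ0⟩
      have hβ0' : β ≠ 0 := fun h ↦ hβ0 (Subtype.ext h)
      have hle : Ideal.span {β} ≤ (J : Ideal (𝓞 K)) := (Ideal.span_singleton_le_iff_mem _).mpr hβ
      obtain ⟨I₀, hI₀⟩ := Ideal.dvd_iff_le.mpr hle
      have hI₀0 : I₀ ≠ ⊥ := by
        rintro rfl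
        rw [Ideal.mul_bot, Ideal.span_singleton_eq_bot] at hI₀
        exact hβ0' hI₀
      let I₁ : (Ideal (𝓞 K))⁰ := ⟨I₀, mem_nonZeroDivisors_iff_ne_zero.mpr hI₀0⟩
      have hcls : ClassGroup.mk0 I₁ = c := by
        have h5 : ClassGroup.mk0 J = (ClassGroup.mk0 I₁)⁻¹ :=
          ClassGroup.mk0_eq_mk0_inv_iff.mpr ⟨β, hβ0', hI₀.symm⟩
        rw [hJ] at h5
        exact (inv_injective h5).symm
      let I : Cls c := ⟨I₁, hcls⟩
      have h6 : Ideal.span {gen J c hJ I} = Ideal.span {β} := by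
        rw [← span_gen, hI₀]
      obtain ⟨u, hu⟩ := Ideal.span_singleton_eq_span_singleton.mp h6
      refine ⟨(I, u), ?_⟩
      apply Subtype.ext
      apply Subtype.ext
      show (u : 𝓞 K) * gen J c hJ I = β
      rw [mul_comm]; exact hu)

theorem orbitEquiv_coe (hJ : ClassGroup.mk0 J = c⁻¹) (p : Cls c × (𝓞 K)ˣ) :
    (((orbitEquiv J c hJ p : {β : (J : Ideal (𝓞 K)) // β ≠ 0}) : (J : Ideal (𝓞 K))) : 𝓞 K) =
      (p.2 : 𝓞 K) * gen J c hJ p.1 := rfl


/-! ### The value of `F` on a unit multiple of a generator -/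

theorem F_emb_zero (ρ : logSpace K → ℝ) {s : ℝ} (hs : s ≠ 0) : F K ρ s (emb K 0) = 0 := by
  have h : emb K (0 : 𝓞 K) = 0 := by
    simp [emb]
  rw [F, h, map_zero, Real.zero_rpow (neg_ne_zero.mpr hs), mul_zero]

theorem norm_emb (β : 𝓞 K) :
    mixedEmbedding.norm (emb K β) = (Ideal.absNorm (Ideal.span {β}) : ℝ) := by
  unfold emb
  rw [mixedEmbedding.norm_eq_norm, Ideal.absNorm_span_singleton, ← Algebra.coe_norm_int,
    Nat.cast_natAbs]
  push_cast
  rfl

theorem emb_unit_mul (u : (𝓞 K)ˣ) (β : 𝓞 K) : emb K ((u : 𝓞 K) * β) = u • emb K β :=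
  (unit_smul_eq_iff_mul_eq.mpr rfl).symm

theorem F_emb_unit_mul (ρ : logSpace K → ℝ) (s : ℝ) (u : (𝓞 K)ˣ) {β : 𝓞 K} (hβ : β ≠ 0) :
    F K ρ s (emb K ((u : 𝓞 K) * β)) =
      ρ (logEmbedding K (Additive.ofMul u) + logMap (emb K β)) *
        ((Ideal.absNorm (Ideal.span {β}) : ℝ)) ^ (-s) := by
  have h0 : mixedEmbedding.norm (emb K β) ≠ 0 := by
    rw [norm_emb, Nat.cast_ne_zero, Ne, Ideal.absNorm_eq_zero_iff, Ideal.span_singleton_eq_bot]
    exact hβ
  rw [F, emb_unit_mul, logMap_unit_smul u h0, norm_unit_smul, norm_emb]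

theorem F_nonneg {ρ : logSpace K → ℝ} (hρ : IsCutoff K ρ) (s : ℝ) (x : mixedSpace K) :
    0 ≤ F K ρ s x :=
  mul_nonneg (hρ.nonneg _) (Real.rpow_nonneg (mixedEmbedding.norm_nonneg x) _)

/-! ### The formula -/

/-- **[CNT-B]** -/
theorem formulaStatement {ρ : logSpace K → ℝ} (hρ : IsCutoff K ρ) : FormulaStatement K ρ := by
  intro s hs J c hJ hsum
  have hs0 : s ≠ 0 := by linarith
  set f : ↥(J : Ideal (𝓞 K)) → ℝ := fun β ↦ F K ρ s (emb K (β : 𝓞 K)) with hf
  -- the sum over `J`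
  have h1 : HasSum f (S K ρ s J) := hsum.hasSum
  -- restrict to nonzero elements
  have h2 : HasSum (f ∘ ((↑) : {β : (J : Ideal (𝓞 K)) // β ≠ 0} → ↥(J : Ideal (𝓞 K))))
      (S K ρ s J) := by
    refine (hasSum_subtype_iff_of_support_subset ?_).mpr h1
    intro β hβ
    simp only [Function.mem_support, ne_eq] at hβ
    show β ≠ 0
    rintro rfl
    exact hβ (F_emb_zero ρ hs0)
  -- transport to pairs
  have h3 := (orbitEquiv J c hJ).hasSum_iff.mpr h2
  -- fibre sums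
  set w : ℝ := (torsionOrder K : ℝ) with hw
  set NJ : ℝ := ((Ideal.absNorm (J : Ideal (𝓞 K)) : ℝ)) with hNJ
  have hfib : ∀ I : Cls c, HasSum (fun u : (𝓞 K)ˣ ↦
      ((f ∘ ((↑) : {β : (J : Ideal (𝓞 K)) // β ≠ 0} → ↥(J : Ideal (𝓞 K)))) ∘ (orbitEquiv J c hJ))
        (I, u)) (w * NJ ^ (-s) * ((Ideal.absNorm (I.1.1 : Ideal (𝓞 K)) : ℝ)) ^ (-s)) := by
    intro I
    have h4 := (hasSum_units hρ (logMap (emb K (gen J c hJ I)))).mul_right
      (((Ideal.absNorm (Ideal.span {gen J c hJ I}) : ℝ)) ^ (-s))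
    have h5 : ((Ideal.absNorm (Ideal.span {gen J c hJ I}) : ℝ)) ^ (-s) =
        NJ ^ (-s) * ((Ideal.absNorm (I.1.1 : Ideal (𝓞 K)) : ℝ)) ^ (-s) := by
      rw [← span_gen J c hJ I, map_mul, Nat.cast_mul,
        Real.mul_rpow (Nat.cast_nonneg _) (Nat.cast_nonneg _)]
    rw [h5, ← mul_assoc] at h4
    have h6 : (fun u : (𝓞 K)ˣ ↦
        ((f ∘ ((↑) : {β : (J : Ideal (𝓞 K)) // β ≠ 0} → ↥(J : Ideal (𝓞 K)))) ∘
          (orbitEquiv J c hJ)) (I, u)) = fun u : (𝓞 K)ˣ ↦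
        ρ (logEmbedding K (Additive.ofMul u) + logMap (emb K (gen J c hJ I))) *
          (NJ ^ (-s) * ((Ideal.absNorm (I.1.1 : Ideal (𝓞 K)) : ℝ)) ^ (-s)) := by
      funext u
      simp only [Function.comp_apply, hf, orbitEquiv_coe]
      rw [F_emb_unit_mul ρ s u (gen_ne_zero J c hJ I), h5]
    rw [h6]
    exact h4
  -- sum over the classes
  have h7 := h3.prod_fiberwise hfib
  have hwN : w * NJ ^ (-s) ≠ 0 := by
    refine mul_ne_zero (Nat.cast_ne_zero.mpr (torsionOrder_ne_zero K)) ?_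
    have hNJ0 : 0 < NJ := by
      rw [hNJ]
      refine Nat.cast_pos.mpr (Nat.pos_of_ne_zero ?_)
      rw [Ne, Ideal.absNorm_eq_zero_iff]
      exact nonZeroDivisors.coe_ne_zero J
    exact (Real.rpow_pos_of_pos hNJ0 _).ne'
  have h8 : Summable (fun I : Cls c ↦ ((Ideal.absNorm (I.1.1 : Ideal (𝓞 K)) : ℝ)) ^ (-s)) :=
    (summable_mul_left_iff hwN).mp h7.summable
  refine ⟨h8, ?_⟩
  rw [← h7.tsum_eq, tsum_mul_left]
  rfl

end Fermat.Agent.S14.Cnt.Formula

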