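import Fermat.Agent.S14.Cnt.Defs

/-!
# S14 / [CNT-C] : decay and Lipschitz estimates for `F ρ s`
-/

namespace Fermat.Agent.S14.Cnt

open NumberField NumberField.InfinitePlace NumberField.mixedEmbedding NumberField.Units
  NumberField.Units.dirichletUnitTheorem NumberField.mixedEmbedding.fundamentalCone
open scoped nonZeroDivisors Classical

variable {K : Type*} [Field K] [NumberField K]

/-- The deviation of `log (normAtPlace w x)` from the mean value `log (norm x) / d`. -/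
noncomputable def dev (x : mixedSpace K) (w : InfinitePlace K) : ℝ :=
  Real.log (normAtPlace w x) - Real.log (mixedEmbedding.norm x) * (Module.finrank ℚ K : ℝ)⁻¹

theorem finrank_pos_real : (0 : ℝ) < (Module.finrank ℚ K : ℝ) := by
  have : 0 < Module.finrank ℚ K := Module.finrank_pos
  exact_mod_cast this

theorem sum_mult_real : ∑ w : InfinitePlace K, (mult w : ℝ) = (Module.finrank ℚ K : ℝ) := by
  have := sum_mult_eq (K := K)
  exact_mod_cast this

theorem log_norm_eq_sum {x : mixedSpace K} (hx : mixedEmbedding.norm x ≠ 0) :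
    Real.log (mixedEmbedding.norm x) =
      ∑ w : InfinitePlace K, (mult w : ℝ) * Real.log (normAtPlace w x) := by
  rw [mixedEmbedding.norm_apply, Real.log_prod]
  · refine Finset.sum_congr rfl fun w _ => ?_
    rw [Real.log_pow]
  · intro w _
    exact pow_ne_zero _ (mixedEmbedding.norm_ne_zero_iff.mp hx w)

theorem sum_mult_dev {x : mixedSpace K} (hx : mixedEmbedding.norm x ≠ 0) :
    ∑ w : InfinitePlace K, (mult w : ℝ) * dev x w = 0 := by
  have hd : (Module.finrank ℚ K : ℝ) ≠ 0 := (finrank_pos_real (K := K)).ne'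
  simp only [dev, mul_sub, Finset.sum_sub_distrib]
  rw [← log_norm_eq_sum hx, ← Finset.sum_mul, sum_mult_real]
  field_simp
  ring

theorem logMap_eq_mult_dev (x : mixedSpace K) (w : {w : InfinitePlace K // w ≠ w₀}) :
    logMap x w = (mult w.1 : ℝ) * dev x w.1 := by
  rw [logMap_apply, dev]

theorem abs_dev_le {x : mixedSpace K} (hx : mixedEmbedding.norm x ≠ 0) {B : ℝ}
    (hB : ‖logMap x‖ ≤ B) (w : InfinitePlace K) :
    |dev x w| ≤ (Fintype.card (InfinitePlace K) : ℝ) * B := by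
  have hB0 : 0 ≤ B := (norm_nonneg _).trans hB
  have hcard : (1 : ℝ) ≤ (Fintype.card (InfinitePlace K) : ℝ) := by
    have : 0 < Fintype.card (InfinitePlace K) := Fintype.card_pos
    exact_mod_cast this
  -- bound at the places different from `w₀`
  have h1 : ∀ v : InfinitePlace K, v ≠ w₀ → |(mult v : ℝ) * dev x v| ≤ B := by
    intro v hv
    have := norm_le_pi_norm (logMap x) ⟨v, hv⟩
    rw [logMap_eq_mult_dev, Real.norm_eq_abs] at this
    exact this.trans hB
  have hmult : ∀ v : InfinitePlace K, |dev x v| ≤ |(mult v : ℝ) * dev x v| := by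
    intro v
    rw [abs_mul, abs_of_pos (by exact_mod_cast (mult_pos (w := v)) : (0 : ℝ) < (mult v : ℝ))]
    exact le_mul_of_one_le_left (abs_nonneg _) one_le_mult
  by_cases hw : w = w₀
  · subst hw
    have hsum := sum_mult_dev hx
    rw [← Finset.add_sum_erase Finset.univ _ (Finset.mem_univ (w₀ : InfinitePlace K))] at hsum
    have h2 : (mult (w₀ : InfinitePlace K) : ℝ) * dev x w₀ =
        - ∑ v ∈ Finset.univ.erase (w₀ : InfinitePlace K), (mult v : ℝ) * dev x v := by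
      linarith
    refine (hmult _).trans ?_
    rw [h2, abs_neg]
    refine (Finset.abs_sum_le_sum_abs _ _).trans ?_
    have h3 : ∑ v ∈ Finset.univ.erase (w₀ : InfinitePlace K), |(mult v : ℝ) * dev x v| ≤
        ∑ _v ∈ Finset.univ.erase (w₀ : InfinitePlace K), B :=
      Finset.sum_le_sum fun v hv => h1 v (Finset.ne_of_mem_erase hv)
    refine h3.trans ?_
    rw [Finset.sum_const, nsmul_eq_mul]
    refine mul_le_mul_of_nonneg_right ?_ hB0
    have : (Finset.univ.erase (w₀ : InfinitePlace K)).card ≤ Fintype.card (InfinitePlace K) :=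
      Finset.card_le_univ _
    exact_mod_cast this
  · refine (hmult w).trans ((h1 w hw).trans ?_)
    exact le_mul_of_one_le_left hB0 hcard


theorem normAtPlace_le_norm (w : InfinitePlace K) (x : mixedSpace K) :
    normAtPlace w x ≤ ‖x‖ := by
  rw [norm_eq_sup'_normAtPlace]
  exact Finset.le_sup' (fun w => normAtPlace w x) (Finset.mem_univ w)

theorem exists_normAtPlace_eq_norm (x : mixedSpace K) :
    ∃ w : InfinitePlace K, normAtPlace w x = ‖x‖ := by
  obtain ⟨w, -, hw⟩ := Finset.exists_mem_eq_sup' (Finset.univ_nonempty (α := InfinitePlace K))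
    (fun w => normAtPlace w x)
  exact ⟨w, by rw [norm_eq_sup'_normAtPlace, hw]⟩

theorem abs_normAtPlace_sub_le (w : InfinitePlace K) (x y : mixedSpace K) :
    |normAtPlace w y - normAtPlace w x| ≤ ‖y - x‖ := by
  have h1 : normAtPlace w y ≤ normAtPlace w x + normAtPlace w (y - x) := by
    have := normAtPlace_add_le w x (y - x)
    rwa [add_sub_cancel] at this
  have h2 : normAtPlace w x ≤ normAtPlace w y + normAtPlace w (y - x) := by
    have := normAtPlace_add_le w y (-(y - x))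
    rw [normAtPlace_neg] at this
    have e : y + -(y - x) = x := by abel
    rwa [e] at this
  have h3 := normAtPlace_le_norm w (y - x)
  rw [abs_le]
  constructor <;> linarith

/-- `log (normAtPlace w x) = M + dev x w` with `M = log (norm x) / d`. -/
theorem normAtPlace_eq_exp {x : mixedSpace K} (hx : mixedEmbedding.norm x ≠ 0)
    (w : InfinitePlace K) :
    normAtPlace w x =
      Real.exp (Real.log (mixedEmbedding.norm x) * (Module.finrank ℚ K : ℝ)⁻¹ + dev x w) := by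
  have hpos : 0 < normAtPlace w x :=
    lt_of_le_of_ne (normAtPlace_nonneg w x) (Ne.symm (mixedEmbedding.norm_ne_zero_iff.mp hx w))
  rw [dev, add_sub_cancel, Real.exp_log hpos]

/-- On the support: every `normAtPlace w x` is at least `exp (-2B') ‖x‖`. -/
theorem normAtPlace_ge_of_dev {x : mixedSpace K} (hx : mixedEmbedding.norm x ≠ 0) {B' : ℝ}
    (hdev : ∀ w, |dev x w| ≤ B') (w : InfinitePlace K) :
    Real.exp (-(2 * B')) * ‖x‖ ≤ normAtPlace w x := by
  obtain ⟨v, hv⟩ := exists_normAtPlace_eq_norm x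
  rw [← hv, normAtPlace_eq_exp hx v, normAtPlace_eq_exp hx w, ← Real.exp_add, Real.exp_le_exp]
  have h1 := (abs_le.mp (hdev v)).2
  have h2 := (abs_le.mp (hdev w)).1
  linarith

/-- On the support: `norm x ≥ (exp (-B') ‖x‖)^d`. -/
theorem norm_ge_of_dev {x : mixedSpace K} (hx : mixedEmbedding.norm x ≠ 0) {B' : ℝ}
    (hdev : ∀ w, |dev x w| ≤ B') :
    (Real.exp (-B') * ‖x‖) ^ (Module.finrank ℚ K) ≤ mixedEmbedding.norm x := by
  have hd : (Module.finrank ℚ K : ℝ) ≠ 0 := (finrank_pos_real (K := K)).ne'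
  have hNpos : 0 < mixedEmbedding.norm x :=
    lt_of_le_of_ne (mixedEmbedding.norm_nonneg x) (Ne.symm hx)
  obtain ⟨v, hv⟩ := exists_normAtPlace_eq_norm x
  have h1 : Real.exp (-B') * ‖x‖ ≤
      Real.exp (Real.log (mixedEmbedding.norm x) * (Module.finrank ℚ K : ℝ)⁻¹) := by
    rw [← hv, normAtPlace_eq_exp hx v, ← Real.exp_add, Real.exp_le_exp]
    have := (abs_le.mp (hdev v)).2
    linarith
  have h0 : 0 ≤ Real.exp (-B') * ‖x‖ := mul_nonneg (Real.exp_pos _).le (norm_nonneg _)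
  calc (Real.exp (-B') * ‖x‖) ^ (Module.finrank ℚ K)
      ≤ (Real.exp (Real.log (mixedEmbedding.norm x) * (Module.finrank ℚ K : ℝ)⁻¹)) ^
          (Module.finrank ℚ K) := pow_le_pow_left₀ h0 h1 _
    _ = mixedEmbedding.norm x := by
        rw [← Real.exp_nat_mul]
        rw [show (Module.finrank ℚ K : ℝ) *
          (Real.log (mixedEmbedding.norm x) * (Module.finrank ℚ K : ℝ)⁻¹) =
          Real.log (mixedEmbedding.norm x) by field_simp]
        exact Real.exp_log hNpos


variable (K) in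
/-- The support constant `B'` attached to a bound `B` for the support of `ρ`. -/
noncomputable def suppConst (B : ℝ) : ℝ := (Fintype.card (InfinitePlace K) : ℝ) * B

theorem F_eq_zero_of_norm_eq_zero (ρ : logSpace K → ℝ) {s : ℝ} (hs : 1 ≤ s) {x : mixedSpace K}
    (hx : mixedEmbedding.norm x = 0) : F K ρ s x = 0 := by
  rw [F, hx, Real.zero_rpow (by linarith), mul_zero]

theorem F_eq_zero_of_lt (ρ : logSpace K → ℝ) {B : ℝ} (hB : ∀ x, B < ‖x‖ → ρ x = 0) (s : ℝ)
    {x : mixedSpace K} (hx : B < ‖logMap x‖) : F K ρ s x = 0 := by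
  rw [F, hB _ hx, zero_mul]

/-- Upper bound for `norm x ^ (-s)` on the support. -/
theorem norm_rpow_neg_le {x : mixedSpace K} (hx : mixedEmbedding.norm x ≠ 0) {B' : ℝ}
    (hB' : 0 ≤ B') (hdev : ∀ w, |dev x w| ≤ B') {s : ℝ} (hs1 : 1 ≤ s) (hs2 : s ≤ 2) :
    (mixedEmbedding.norm x) ^ (-s) ≤
      Real.exp (2 * B' * (Module.finrank ℚ K : ℝ)) * ‖x‖ ^ (-(Module.finrank ℚ K : ℝ) * s) := by
  have hd := finrank_pos_real (K := K)
  have hx0 : x ≠ 0 := by
    rintro rfl
    exact hx (map_zero _)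
  have hxpos : 0 < ‖x‖ := norm_pos_iff.mpr hx0
  have hbase : 0 < Real.exp (-B') * ‖x‖ := mul_pos (Real.exp_pos _) hxpos
  have h1 := norm_ge_of_dev hx hdev
  have h2 : (mixedEmbedding.norm x) ^ (-s) ≤
      ((Real.exp (-B') * ‖x‖) ^ (Module.finrank ℚ K)) ^ (-s) :=
    Real.rpow_le_rpow_of_nonpos (pow_pos hbase _) h1 (by linarith)
  refine h2.trans ?_
  rw [← Real.rpow_natCast, ← Real.rpow_mul hbase.le, Real.mul_rpow (Real.exp_pos _).le hxpos.le,
    ← Real.exp_mul]
  have e1 : (Module.finrank ℚ K : ℝ) * -s = -(Module.finrank ℚ K : ℝ) * s := by ring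
  rw [e1]
  refine mul_le_mul_of_nonneg_right ?_ (Real.rpow_nonneg hxpos.le _)
  rw [Real.exp_le_exp]
  have : B' * ((Module.finrank ℚ K : ℝ) * s) ≤ B' * ((Module.finrank ℚ K : ℝ) * 2) :=
    mul_le_mul_of_nonneg_left (mul_le_mul_of_nonneg_left hs2 hd.le) hB'
  nlinarith

/-- [CNT-C1] -/
theorem growthStatement {ρ : logSpace K → ℝ} (hρ : IsCutoff K ρ) : GrowthStatement K ρ := by
  obtain ⟨B, hB⟩ := hρ.bounded_support
  have hcard : (0 : ℝ) ≤ (Fintype.card (InfinitePlace K) : ℝ) := Nat.cast_nonneg _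
  refine ⟨Real.exp (2 * suppConst K (max B 0) * (Module.finrank ℚ K : ℝ)), ?_⟩
  intro s hs1 hs2 x
  have hRHS : 0 ≤ Real.exp (2 * suppConst K (max B 0) * (Module.finrank ℚ K : ℝ)) *
      ‖x‖ ^ (-(Module.finrank ℚ K : ℝ) * s) :=
    mul_nonneg (Real.exp_pos _).le (Real.rpow_nonneg (norm_nonneg _) _)
  by_cases hx : mixedEmbedding.norm x = 0
  · rw [F_eq_zero_of_norm_eq_zero ρ hs1 hx, abs_zero]
    exact hRHS
  by_cases hl : B < ‖logMap x‖
  · rw [F_eq_zero_of_lt ρ hB s hl, abs_zero]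
    exact hRHS
  have hl' : ‖logMap x‖ ≤ max B 0 := (not_lt.mp hl).trans (le_max_left _ _)
  have hdev : ∀ w, |dev x w| ≤ suppConst K (max B 0) := fun w => abs_dev_le hx hl' w
  have hB' : 0 ≤ suppConst K (max B 0) := mul_nonneg hcard (le_max_right _ _)
  have hN := norm_rpow_neg_le hx hB' hdev hs1 hs2
  have hNnn : 0 ≤ (mixedEmbedding.norm x) ^ (-s) :=
    Real.rpow_nonneg (mixedEmbedding.norm_nonneg x) _
  rw [F, abs_mul, abs_of_nonneg (hρ.nonneg _), abs_of_nonneg hNnn]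
  calc ρ (logMap x) * (mixedEmbedding.norm x) ^ (-s)
      ≤ 1 * (mixedEmbedding.norm x) ^ (-s) := mul_le_mul_of_nonneg_right (hρ.le_one _) hNnn
    _ = (mixedEmbedding.norm x) ^ (-s) := one_mul _
    _ ≤ _ := hN


theorem abs_log_sub_log_le {a b m : ℝ} (hm : 0 < m) (ha : m ≤ a) (hb : m ≤ b) :
    |Real.log a - Real.log b| ≤ |a - b| / m := by
  have ha0 : 0 < a := hm.trans_le ha
  have hb0 : 0 < b := hm.trans_le hb
  have key : ∀ {u v : ℝ}, 0 < u → m ≤ v → Real.log u - Real.log v ≤ |u - v| / m := by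
    intro u v hu hv
    have hv0 : 0 < v := hm.trans_le hv
    rw [← Real.log_div hu.ne' hv0.ne']
    have h1 := Real.log_le_sub_one_of_pos (div_pos hu hv0)
    have h2 : u / v - 1 = (u - v) / v := by field_simp
    rw [h2] at h1
    refine h1.trans ?_
    refine (div_le_div_of_nonneg_right (le_abs_self _) hv0.le).trans ?_
    exact div_le_div_of_nonneg_left (abs_nonneg _) hm hv
  rw [abs_le]
  constructor
  · have := key hb0 ha
    rw [abs_sub_comm] at this
    linarith
  · exact key ha0 hb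

theorem mult_le_two_real (w : InfinitePlace K) : (mult w : ℝ) ≤ 2 := by
  rw [mult]
  split_ifs <;> norm_num


/-- One-sided Lipschitz estimate: `x` in the support, `y` close to `x`. -/
theorem F_sub_le_of_dev {ρ : logSpace K → ℝ} (hρ : IsCutoff K ρ) {L : NNReal}
    (hL : LipschitzWith L ρ) {B' : ℝ} (hB' : 0 ≤ B') {T : ℝ} (hT : 0 < T) {s : ℝ}
    (hs1 : 1 ≤ s) (hs2 : s ≤ 2) {x y : mixedSpace K} (hx : mixedEmbedding.norm x ≠ 0)
    (hdev : ∀ w, |dev x w| ≤ B') (hxy : ‖y - x‖ ≤ T) (hx1 : 1 ≤ ‖x‖)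
    (hxR : 4 * (Module.finrank ℚ K : ℝ) * T * Real.exp (2 * B') ≤ ‖x‖) :
    |F K ρ s y - F K ρ s x| ≤
      (12 * (L : ℝ) + 4 * (Module.finrank ℚ K : ℝ)) * (2 * T * Real.exp (2 * B')) *
        Real.exp (2 * B' * (Module.finrank ℚ K : ℝ)) *
        ‖x‖ ^ (-((Module.finrank ℚ K : ℝ) + 1)) := by
  set d : ℝ := (Module.finrank ℚ K : ℝ) with hd_def
  have hd : 0 < d := finrank_pos_real (K := K)
  have hd1 : 1 ≤ d := by
    have : 1 ≤ Module.finrank ℚ K := Module.finrank_pos
    rw [hd_def]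
    exact_mod_cast this
  have hxpos : 0 < ‖x‖ := lt_of_lt_of_le one_pos hx1
  set c : ℝ := Real.exp (-(2 * B')) with hc_def
  have hcpos : 0 < c := Real.exp_pos _
  have hcc : c * Real.exp (2 * B') = 1 := by
    rw [hc_def, ← Real.exp_add]; simp
  -- (a), (b)
  have ha : ∀ w, c * ‖x‖ ≤ normAtPlace w x := fun w => normAtPlace_ge_of_dev hx hdev w
  have hb : 4 * d * T ≤ c * ‖x‖ := by
    have := mul_le_mul_of_nonneg_left hxR hcpos.le
    calc 4 * d * T = c * Real.exp (2 * B') * (4 * d * T) := by rw [hcc, one_mul]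
      _ = c * (4 * d * T * Real.exp (2 * B')) := by ring
      _ ≤ c * ‖x‖ := this
  have hb2 : 2 * T ≤ c * ‖x‖ := by nlinarith
  set m : ℝ := c * ‖x‖ / 2 with hm_def
  have hm : 0 < m := by positivity
  -- (c), (d)
  have hc' : ∀ w, |normAtPlace w y - normAtPlace w x| ≤ T :=
    fun w => (abs_normAtPlace_sub_le w x y).trans hxy
  have hmx : ∀ w, m ≤ normAtPlace w x := fun w => by
    have := ha w; rw [hm_def]; linarith
  have hmy : ∀ w, m ≤ normAtPlace w y := fun w => by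
    have h1 := ha w
    have h2 := (abs_le.mp (hc' w)).1
    rw [hm_def]; linarith
  set δ : ℝ := 2 * T * Real.exp (2 * B') / ‖x‖ with hδ_def
  have hδpos : 0 < δ := by positivity
  have hTm : T / m = δ := by
    rw [hm_def, hδ_def]
    field_simp
    exact hcc.symm
  -- (e)
  have he : ∀ w, |Real.log (normAtPlace w y) - Real.log (normAtPlace w x)| ≤ δ := fun w => by
    rw [← hTm]
    exact (abs_log_sub_log_le hm (hmy w) (hmx w)).trans
      (div_le_div_of_nonneg_right (hc' w) hm.le)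
  -- (f)
  have hy : mixedEmbedding.norm y ≠ 0 :=
    mixedEmbedding.norm_ne_zero_iff.mpr fun w => (hm.trans_le (hmy w)).ne'
  have hNx : 0 < mixedEmbedding.norm x :=
    lt_of_le_of_ne (mixedEmbedding.norm_nonneg x) (Ne.symm hx)
  have hNy : 0 < mixedEmbedding.norm y :=
    lt_of_le_of_ne (mixedEmbedding.norm_nonneg y) (Ne.symm hy)
  -- (g)
  have hg : |Real.log (mixedEmbedding.norm y) - Real.log (mixedEmbedding.norm x)| ≤ d * δ := by
    rw [log_norm_eq_sum hx, log_norm_eq_sum hy, ← Finset.sum_sub_distrib]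
    refine (Finset.abs_sum_le_sum_abs _ _).trans ?_
    have : ∀ w ∈ (Finset.univ : Finset (InfinitePlace K)),
        |(mult w : ℝ) * Real.log (normAtPlace w y) - (mult w : ℝ) * Real.log (normAtPlace w x)| ≤
          (mult w : ℝ) * δ := by
      intro w _
      rw [← mul_sub, abs_mul, abs_of_nonneg (Nat.cast_nonneg _)]
      exact mul_le_mul_of_nonneg_left (he w) (Nat.cast_nonneg _)
    refine (Finset.sum_le_sum this).trans ?_
    rw [← Finset.sum_mul, sum_mult_real]
  -- (h)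
  have hh : ∀ w, |dev y w - dev x w| ≤ 2 * δ := fun w => by
    have e : dev y w - dev x w =
        (Real.log (normAtPlace w y) - Real.log (normAtPlace w x)) -
        (Real.log (mixedEmbedding.norm y) - Real.log (mixedEmbedding.norm x)) * d⁻¹ := by
      simp only [dev]; ring
    rw [e]
    refine (abs_sub _ _).trans ?_
    have h1 := he w
    have h2 : |(Real.log (mixedEmbedding.norm y) - Real.log (mixedEmbedding.norm x)) * d⁻¹| ≤ δ := by
      rw [abs_mul, abs_of_pos (inv_pos.mpr hd)]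
      calc _ ≤ d * δ * d⁻¹ := mul_le_mul_of_nonneg_right hg (inv_pos.mpr hd).le
        _ = δ := by field_simp
    linarith
  -- (i)
  have hi : ‖logMap y - logMap x‖ ≤ 4 * δ := by
    rw [pi_norm_le_iff_of_nonneg (by positivity)]
    intro w
    rw [Pi.sub_apply, logMap_eq_mult_dev, logMap_eq_mult_dev, ← mul_sub, Real.norm_eq_abs, abs_mul,
      abs_of_nonneg (Nat.cast_nonneg _)]
    calc (mult w.1 : ℝ) * |dev y w.1 - dev x w.1| ≤ 2 * (2 * δ) :=
          mul_le_mul (mult_le_two_real _) (hh _) (abs_nonneg _) (by norm_num)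
      _ = 4 * δ := by ring
  -- (j)
  have hj : |ρ (logMap y) - ρ (logMap x)| ≤ (L : ℝ) * (4 * δ) := by
    have := hL.dist_le_mul (logMap y) (logMap x)
    rw [Real.dist_eq, dist_eq_norm] at this
    exact this.trans (mul_le_mul_of_nonneg_left hi L.coe_nonneg)
  -- (k)
  set u : ℝ := (Real.log (mixedEmbedding.norm y) - Real.log (mixedEmbedding.norm x)) * (-s)
    with hu_def
  have hu : |u| ≤ 2 * d * δ := by
    rw [hu_def, abs_mul, abs_neg, abs_of_nonneg (by linarith : (0 : ℝ) ≤ s)]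
    calc _ ≤ d * δ * 2 := mul_le_mul hg hs2 (by linarith) (by positivity)
      _ = 2 * d * δ := by ring
  have hdδ : 4 * d * δ ≤ 2 := by
    have : 4 * d * δ = 2 * (4 * d * T) * Real.exp (2 * B') / ‖x‖ := by
      rw [hδ_def]; ring
    rw [this, div_le_iff₀ hxpos]
    calc 2 * (4 * d * T) * Real.exp (2 * B') ≤ 2 * (c * ‖x‖) * Real.exp (2 * B') :=
          mul_le_mul_of_nonneg_right (by linarith) (Real.exp_pos _).le
      _ = 2 * ‖x‖ * (c * Real.exp (2 * B')) := by ring
      _ = 2 * ‖x‖ := by rw [hcc, mul_one]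
  have hu1 : |u| ≤ 1 := by linarith
  have hexp : |Real.exp u - 1| ≤ 4 * d * δ := by
    have := Real.abs_exp_sub_one_le hu1
    linarith
  have hNyx : (mixedEmbedding.norm y) ^ (-s) = (mixedEmbedding.norm x) ^ (-s) * Real.exp u := by
    rw [Real.rpow_def_of_pos hNy, Real.rpow_def_of_pos hNx, ← Real.exp_add, hu_def]
    congr 1; ring
  have hNxnn : 0 ≤ (mixedEmbedding.norm x) ^ (-s) := Real.rpow_nonneg hNx.le _
  have hk1 : |(mixedEmbedding.norm y) ^ (-s) - (mixedEmbedding.norm x) ^ (-s)| ≤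
      (mixedEmbedding.norm x) ^ (-s) * (4 * d * δ) := by
    rw [hNyx]
    have : (mixedEmbedding.norm x) ^ (-s) * Real.exp u - (mixedEmbedding.norm x) ^ (-s) =
        (mixedEmbedding.norm x) ^ (-s) * (Real.exp u - 1) := by ring
    rw [this, abs_mul, abs_of_nonneg hNxnn]
    exact mul_le_mul_of_nonneg_left hexp hNxnn
  have hk2 : (mixedEmbedding.norm y) ^ (-s) ≤ 3 * (mixedEmbedding.norm x) ^ (-s) := by
    have h1 := (abs_le.mp hk1).2
    have h2 : (mixedEmbedding.norm x) ^ (-s) * (4 * d * δ) ≤ (mixedEmbedding.norm x) ^ (-s) * 2 :=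
      mul_le_mul_of_nonneg_left hdδ hNxnn
    linarith
  have hNynn : 0 ≤ (mixedEmbedding.norm y) ^ (-s) := Real.rpow_nonneg hNy.le _
  -- (l)
  have hl : |F K ρ s y - F K ρ s x| ≤
      (12 * (L : ℝ) + 4 * d) * δ * (mixedEmbedding.norm x) ^ (-s) := by
    have e : F K ρ s y - F K ρ s x =
        (ρ (logMap y) - ρ (logMap x)) * (mixedEmbedding.norm y) ^ (-s) +
        ρ (logMap x) * ((mixedEmbedding.norm y) ^ (-s) - (mixedEmbedding.norm x) ^ (-s)) := by
      simp only [F]; ring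
    rw [e]
    refine (abs_add_le _ _).trans ?_
    rw [abs_mul, abs_mul, abs_of_nonneg hNynn, abs_of_nonneg (hρ.nonneg _)]
    have t1 : |ρ (logMap y) - ρ (logMap x)| * (mixedEmbedding.norm y) ^ (-s) ≤
        (L : ℝ) * (4 * δ) * (3 * (mixedEmbedding.norm x) ^ (-s)) :=
      mul_le_mul hj hk2 hNynn (by positivity)
    have t2 : ρ (logMap x) *
        |(mixedEmbedding.norm y) ^ (-s) - (mixedEmbedding.norm x) ^ (-s)| ≤
        1 * ((mixedEmbedding.norm x) ^ (-s) * (4 * d * δ)) :=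
      mul_le_mul (hρ.le_one _) hk1 (abs_nonneg _) zero_le_one
    calc _ ≤ (L : ℝ) * (4 * δ) * (3 * (mixedEmbedding.norm x) ^ (-s)) +
          1 * ((mixedEmbedding.norm x) ^ (-s) * (4 * d * δ)) := add_le_add t1 t2
      _ = (12 * (L : ℝ) + 4 * d) * δ * (mixedEmbedding.norm x) ^ (-s) := by ring
  -- (m)
  have hm1 : (mixedEmbedding.norm x) ^ (-s) ≤ Real.exp (2 * B' * d) * ‖x‖ ^ (-d) := by
    refine (norm_rpow_neg_le hx hB' hdev hs1 hs2).trans ?_
    refine mul_le_mul_of_nonneg_left ?_ (Real.exp_pos _).le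
    refine Real.rpow_le_rpow_of_exponent_le hx1 ?_
    nlinarith
  -- (n)
  have hn : δ * ‖x‖ ^ (-d) = 2 * T * Real.exp (2 * B') * ‖x‖ ^ (-(d + 1)) := by
    rw [hδ_def, neg_add, Real.rpow_add hxpos, Real.rpow_neg_one]
    field_simp
  have hcoef : 0 ≤ (12 * (L : ℝ) + 4 * d) * δ := by positivity
  calc |F K ρ s y - F K ρ s x|
      ≤ (12 * (L : ℝ) + 4 * d) * δ * (mixedEmbedding.norm x) ^ (-s) := hl
    _ ≤ (12 * (L : ℝ) + 4 * d) * δ * (Real.exp (2 * B' * d) * ‖x‖ ^ (-d)) :=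
        mul_le_mul_of_nonneg_left hm1 hcoef
    _ = (12 * (L : ℝ) + 4 * d) * (δ * ‖x‖ ^ (-d)) * Real.exp (2 * B' * d) := by ring
    _ = (12 * (L : ℝ) + 4 * d) * (2 * T * Real.exp (2 * B')) * Real.exp (2 * B' * d) *
        ‖x‖ ^ (-(d + 1)) := by rw [hn]; ring


theorem half_rpow_neg {a e : ℝ} (ha : 0 ≤ a) :
    (a / 2) ^ (-e) = (2 : ℝ) ^ e * a ^ (-e) := by
  rw [div_eq_mul_inv, Real.mul_rpow ha (by norm_num), Real.inv_rpow (by norm_num),
    Real.rpow_neg (by norm_num : (0 : ℝ) ≤ 2), inv_inv, mul_comm]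

/-- [CNT-C2] -/
theorem lipStatement {ρ : logSpace K → ℝ} (hρ : IsCutoff K ρ) : LipStatement K ρ := by
  intro T
  obtain ⟨B, hB⟩ := hρ.bounded_support
  obtain ⟨L, hL⟩ := hρ.lipschitz
  set d : ℝ := (Module.finrank ℚ K : ℝ) with hd_def
  have hd : 0 < d := finrank_pos_real (K := K)
  set T' : ℝ := max T 1 with hT'_def
  have hT' : 0 < T' := lt_of_lt_of_le one_pos (le_max_right _ _)
  set B' : ℝ := suppConst K (max B 0) with hB'_def
  have hB' : 0 ≤ B' := mul_nonneg (Nat.cast_nonneg _) (le_max_right _ _)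
  set C₁ : ℝ := (12 * (L : ℝ) + 4 * d) * (2 * T' * Real.exp (2 * B')) * Real.exp (2 * B' * d)
    with hC₁_def
  have hC₁ : 0 ≤ C₁ := by positivity
  set R₁ : ℝ := max 1 (4 * d * T' * Real.exp (2 * B')) with hR₁_def
  have hR₁1 : 1 ≤ R₁ := le_max_left _ _
  have hR₁2 : 4 * d * T' * Real.exp (2 * B') ≤ R₁ := le_max_right _ _
  have h2pow : (1 : ℝ) ≤ (2 : ℝ) ^ (d + 1) :=
    Real.one_le_rpow (by norm_num) (by linarith)
  refine ⟨C₁ * (2 : ℝ) ^ (d + 1), 2 * R₁ + 2 * T', ?_⟩
  intro s hs1 hs2 x t ht hxR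
  have ht' : ‖t‖ ≤ T' := ht.trans (le_max_left _ _)
  have hxpos : 0 < ‖x‖ := by linarith
  have hpownn : 0 ≤ ‖x‖ ^ (-(d + 1)) := Real.rpow_nonneg hxpos.le _
  have hzero : ∀ z : mixedSpace K,
      ¬ (mixedEmbedding.norm z ≠ 0 ∧ ‖logMap z‖ ≤ max B 0) → F K ρ s z = 0 := by
    intro z hz
    by_cases hz0 : mixedEmbedding.norm z = 0
    · exact F_eq_zero_of_norm_eq_zero ρ hs1 hz0
    · have : ¬ ‖logMap z‖ ≤ max B 0 := fun h => hz ⟨hz0, h⟩
      exact F_eq_zero_of_lt ρ hB s (lt_of_le_of_lt (le_max_left _ _) (not_le.mp this))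
  by_cases hxs : mixedEmbedding.norm x ≠ 0 ∧ ‖logMap x‖ ≤ max B 0
  · have h := F_sub_le_of_dev hρ hL hB' hT' hs1 hs2 hxs.1 (fun w => abs_dev_le hxs.1 hxs.2 w)
      (y := x + t) (by simpa using ht') (by linarith) (by linarith)
    refine h.trans ?_
    calc C₁ * ‖x‖ ^ (-(d + 1)) = C₁ * 1 * ‖x‖ ^ (-(d + 1)) := by ring
      _ ≤ C₁ * (2 : ℝ) ^ (d + 1) * ‖x‖ ^ (-(d + 1)) :=
        mul_le_mul_of_nonneg_right (mul_le_mul_of_nonneg_left h2pow hC₁) hpownn
  · have hFx : F K ρ s x = 0 := hzero x hxs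
    by_cases hys : mixedEmbedding.norm (x + t) ≠ 0 ∧ ‖logMap (x + t)‖ ≤ max B 0
    · have hyn : ‖x‖ - T' ≤ ‖x + t‖ := by
        have := norm_sub_norm_le x (-t)
        rw [norm_neg, sub_neg_eq_add] at this
        linarith
      have hyhalf : ‖x‖ / 2 ≤ ‖x + t‖ := by linarith
      have h := F_sub_le_of_dev hρ hL hB' hT' hs1 hs2 hys.1
        (fun w => abs_dev_le hys.1 hys.2 w) (y := x)
        (by rw [sub_add_cancel_left, norm_neg]; exact ht') (by linarith) (by linarith)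
      rw [abs_sub_comm]
      refine h.trans ?_
      have hmono : ‖x + t‖ ^ (-(d + 1)) ≤ (‖x‖ / 2) ^ (-(d + 1)) :=
        Real.rpow_le_rpow_of_nonpos (by positivity) hyhalf (by linarith)
      rw [half_rpow_neg hxpos.le] at hmono
      calc C₁ * ‖x + t‖ ^ (-(d + 1)) ≤ C₁ * ((2 : ℝ) ^ (d + 1) * ‖x‖ ^ (-(d + 1))) :=
            mul_le_mul_of_nonneg_left hmono hC₁
        _ = C₁ * (2 : ℝ) ^ (d + 1) * ‖x‖ ^ (-(d + 1)) := by ring
    · rw [hFx, hzero (x + t) hys, sub_zero, abs_zero]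
      exact mul_nonneg (mul_nonneg hC₁ (by positivity)) hpownn

end Fermat.Agent.S14.Cnt
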