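import Fermat.Agent.S14.Cnt.Cutoff
import Fermat.Agent.S14.Cnt.Formula
import Fermat.Agent.S14.Cnt.Coset46
import Fermat.Agent.S14.Cnt.Lip
import Fermat.Agent.S14.Cnt.Final

/-!
# S14 / [CNT] : final theorems

* `classZetaStatement K` : the partial zeta functions of the ideal classes of a number field `K`
  converge for `s > 1` and any two of them differ by a bounded function on `(1,2]`.
* `classL_bounded`, `classLSeries_bounded` : for `ψ : ClassGroup (𝓞 K) → ℂ` with `∑ c, ψ c = 0`,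
  the series `∑_I ψ([I]) N(I)^(-s)` over the nonzero ideals converges absolutely for `s > 1` and
  is bounded on `(1,2]`.
* `sum_char_eq_zero` : a nontrivial character of the class group sums to zero.
-/

namespace Fermat.Agent.S14.Cnt

open NumberField
open scoped nonZeroDivisors Classical

variable (K : Type*) [Field K] [NumberField K]

/-- **[CNT]** partial zeta functions of ideal classes differ by `O(1)` on `(1,2]`. -/
theorem classZetaStatement : ClassZetaStatement K := by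
  obtain ⟨ρ, hρ⟩ := Cutoff.cutoffStatement K
  have hG := growthStatement hρ
  have hL := lipStatement hρ
  exact classZetaStatement_of hρ (Coset46.summableStatement hG)
    (Coset46.cosetStatement hG hL hρ) (Formula.formulaStatement hρ)

variable {K}

/-- Boundedness of class-group `L`-series on `(1,2]` (real-power form). -/
theorem classL_bounded (ψ : ClassGroup (𝓞 K) → ℂ) (hψ : ∑ c, ψ c = 0) :
    ∃ B : ℝ, ∀ s : ℝ, 1 < s → s ≤ 2 →
      Summable (fun I : (Ideal (𝓞 K))⁰ => ψ (ClassGroup.mk0 I) *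
        (((Ideal.absNorm (I : Ideal (𝓞 K)) : ℝ) ^ (-s) : ℝ) : ℂ)) ∧
      ‖∑' I : (Ideal (𝓞 K))⁰, ψ (ClassGroup.mk0 I) *
        (((Ideal.absNorm (I : Ideal (𝓞 K)) : ℝ) ^ (-s) : ℝ) : ℂ)‖ ≤ B :=
  classL_bounded_of (classZetaStatement K) ψ hψ

/-- Boundedness of class-group `L`-series on `(1,2]` (complex-power form). -/
theorem classLSeries_bounded (ψ : ClassGroup (𝓞 K) → ℂ) (hψ : ∑ c, ψ c = 0) :
    ∃ B : ℝ, ∀ s : ℝ, 1 < s → s ≤ 2 →
      Summable (fun I : (Ideal (𝓞 K))⁰ => ψ (ClassGroup.mk0 I) *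
        ((Ideal.absNorm (I : Ideal (𝓞 K)) : ℂ)) ^ (-(s : ℂ))) ∧
      ‖∑' I : (Ideal (𝓞 K))⁰, ψ (ClassGroup.mk0 I) *
        ((Ideal.absNorm (I : Ideal (𝓞 K)) : ℂ)) ^ (-(s : ℂ))‖ ≤ B :=
  classLSeries_bounded_of (classZetaStatement K) ψ hψ

/-- A nontrivial character of the (finite) class group sums to zero. -/
theorem sum_char_eq_zero (ψ : ClassGroup (𝓞 K) →* ℂˣ) (hψ : ψ ≠ 1) :
    ∑ c, (ψ c : ℂ) = 0 := by
  obtain ⟨g, hg⟩ : ∃ g, ψ g ≠ 1 := by
    by_contra h
    simp only [not_exists, not_not] at h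
    exact hψ (MonoidHom.ext fun c => by simpa using h c)
  have h1 : ∑ c, (ψ c : ℂ) = (ψ g : ℂ) * ∑ c, (ψ c : ℂ) := by
    rw [Finset.mul_sum]
    rw [← Equiv.sum_comp (Equiv.mulLeft g)]
    refine Finset.sum_congr rfl fun c _ => ?_
    simp
  have h2 : ((ψ g : ℂ) - 1) * ∑ c, (ψ c : ℂ) = 0 := by
    rw [sub_mul, one_mul, ← h1, sub_self]
  rcases mul_eq_zero.mp h2 with h | h
  · exfalso
    apply hg
    have : (ψ g : ℂ) = 1 := by linear_combination h
    exact Units.ext (by simpa using this)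
  · exact h

/-- Boundedness of `L(s, ψ)` for a nontrivial character `ψ` of the class group. -/
theorem classLSeries_char_bounded (ψ : ClassGroup (𝓞 K) →* ℂˣ) (hψ : ψ ≠ 1) :
    ∃ B : ℝ, ∀ s : ℝ, 1 < s → s ≤ 2 →
      Summable (fun I : (Ideal (𝓞 K))⁰ => (ψ (ClassGroup.mk0 I) : ℂ) *
        ((Ideal.absNorm (I : Ideal (𝓞 K)) : ℂ)) ^ (-(s : ℂ))) ∧
      ‖∑' I : (Ideal (𝓞 K))⁰, (ψ (ClassGroup.mk0 I) : ℂ) *
        ((Ideal.absNorm (I : Ideal (𝓞 K)) : ℂ)) ^ (-(s : ℂ))‖ ≤ B :=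
  classLSeries_bounded (fun c => (ψ c : ℂ)) (sum_char_eq_zero ψ hψ)

end Fermat.Agent.S14.Cnt
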